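/-
S15 / block FL-1 (architect helper173): the local condition `FL` at the residue characteristic.
DEFINITIONS.  `A` is a valuation subring of `ℚ̄` over the prime `q`, `Ine A` its inertia group,
`K0 A` the inertia field (`Lib/InertiaField`: `A ∩ K0 A` is a henselian DVR with uniformiser `q` and
algebraically closed residue field).  Everything is expressed through inertia orbits in `ℚ̄`.
-/
import Fermat.Agent.Lib.InertiaField.Unram
import Fermat.Agent.Lib.InertiaField.Residue
import Fermat.Agent.Lib.InertiaField.Closed
import Fermat.Agent.S19.Loc.Calc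

set_option autoImplicit false

namespace Fermat.Agent.S15.FL

open Fermat.Agent.Lib.InertiaField

/-- The inertia group of `A`. -/
noncomputable abbrev Ine (A : ValuationSubring Qb) : Subgroup GQ := A.inertiaSubgroupIn ℚ

/-- The inertia orbit of `x` (= the set of conjugates of `x` over `K0 A`). -/
def orb (A : ValuationSubring Qb) (x : Qb) : Set Qb := {y | ∃ s ∈ Ine A, s x = y}

/-- `u` is a unit of `A`. -/
def IsUn (A : ValuationSubring Qb) (u : Qb) : Prop := A.valuation u = 1

/-- `c` is fixed by the stabiliser of `x` in the inertia group (i.e. `c ∈ K0(x)`). -/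
def FixBy (A : ValuationSubring Qb) (x c : Qb) : Prop := ∀ s ∈ Ine A, s x = x → s c = c

/-- `π` is a uniformiser of the totally ramified extension `K0(π)/K0` of degree `n`. -/
structure IsUnif (A : ValuationSubring Qb) (q : ℕ) (π : Qb) (n : ℕ) : Prop where
  pos : 0 < n
  exists_unit : ∃ u, IsUn A u ∧ π ^ n = (q : Qb) * u
  card : (orb A π).ncard = n

/-- linear independence over `K0 A`, elementwise -/
def IndepK0 (A : ValuationSubring Qb) {m : ℕ} (a : Fin m → Qb) : Prop :=
  ∀ l : Fin m → Qb, (∀ k, l k ∈ K0 A) → ∑ k, l k * a k = 0 → ∀ k, l k = 0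

end Fermat.Agent.S15.FL
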