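/-
S15 / block FL-1 (architect helper173), node FL-01 (owner helper68): basic API of inertia orbits,
`IsUn`, `FixBy`.
-/
import Fermat.Agent.S15.FL.Defs
import Fermat.Agent.S05.Inertia

set_option autoImplicit false

namespace Fermat.Agent.S15.FL

open Fermat.Agent.Lib.InertiaField Polynomial

variable (A : ValuationSubring Qb)

theorem orb_finite (x : Qb) : (orb A x).Finite := by
  refine ((minpoly ℚ x).rootSet_finite Qb).subset ?_
  rintro y ⟨s, -, rfl⟩
  have := Fermat.Agent.Lib.Frobenius.isIntegral_rat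
  have hx : IsIntegral ℚ x := Algebra.IsIntegral.isIntegral x
  refine Polynomial.mem_rootSet.2 ⟨minpoly.ne_zero hx, ?_⟩
  have h := Polynomial.aeval_algHom_apply (s : Qb →ₐ[ℚ] Qb) x (minpoly ℚ x)
  rw [minpoly.aeval, map_zero] at h
  exact h

theorem mem_orb_self (x : Qb) : x ∈ orb A x := ⟨1, one_mem _, rfl⟩

theorem apply_mem_orb {x y : Qb} (hy : y ∈ orb A x) {s : GQ} (hs : s ∈ Ine A) : s y ∈ orb A x := by
  obtain ⟨t, ht, rfl⟩ := hy
  exact ⟨s * t, mul_mem hs ht, rfl⟩

theorem ncard_orb_pos (x : Qb) : 0 < (orb A x).ncard :=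
  (Set.ncard_pos (orb_finite A x)).2 ⟨x, mem_orb_self A x⟩

/-- `Fermat.Agent.S05.decomposition_valuation_eq` + `inertia_le_decomposition` -/
theorem valuation_apply {s : GQ} (hs : s ∈ Ine A) (x : Qb) :
    A.valuation (s x) = A.valuation x := by
  have := Fermat.Agent.Lib.Frobenius.isIntegral_rat
  exact Fermat.Agent.S05.decomposition_valuation_eq A (inertia_le_decomposition A hs) x

theorem mem_of_mem_orb {x y : Qb} (hy : y ∈ orb A x) (hx : x ∈ A) : y ∈ A := by
  obtain ⟨s, hs, rfl⟩ := hy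
  rw [← A.valuation_le_one_iff] at hx ⊢
  rwa [valuation_apply A hs]

theorem isUn_iff {u : Qb} : IsUn A u ↔ u ≠ 0 ∧ u ∈ A ∧ u⁻¹ ∈ A := by
  unfold IsUn
  constructor
  · intro h
    have h0 : u ≠ 0 := by
      rintro rfl
      rw [map_zero] at h
      exact zero_ne_one h
    refine ⟨h0, (A.valuation_le_one_iff u).1 h.le, (A.valuation_le_one_iff _).1 ?_⟩
    rw [map_inv₀, h, inv_one]
  · rintro ⟨h0, h1, h2⟩
    rw [← A.valuation_le_one_iff] at h1 h2
    refine le_antisymm h1 ?_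
    have hv : A.valuation u ≠ 0 := (_root_.map_ne_zero _).2 h0
    rw [map_inv₀] at h2
    exact (inv_le_one₀ (zero_lt_iff.2 hv)).1 h2

theorem IsUn.ne_zero {u : Qb} (hu : IsUn A u) : u ≠ 0 := ((isUn_iff A).1 hu).1

theorem IsUn.mem {u : Qb} (hu : IsUn A u) : u ∈ A := ((isUn_iff A).1 hu).2.1

theorem IsUn.inv_mem {u : Qb} (hu : IsUn A u) : u⁻¹ ∈ A := ((isUn_iff A).1 hu).2.2

theorem IsUn.not_mem_nonunits {u : Qb} (hu : IsUn A u) : u ∉ A.nonunits := by
  rw [ValuationSubring.mem_nonunits_iff]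
  have h : A.valuation u = 1 := hu
  rw [h]
  exact lt_irrefl _

theorem IsUn.mul {u v : Qb} (hu : IsUn A u) (hv : IsUn A v) : IsUn A (u * v) := by
  unfold IsUn at *
  rw [map_mul, hu, hv, one_mul]

theorem IsUn.inv {u : Qb} (hu : IsUn A u) : IsUn A u⁻¹ := by
  unfold IsUn at *
  rw [map_inv₀, hu, inv_one]

theorem IsUn.pow {u : Qb} (hu : IsUn A u) (n : ℕ) : IsUn A (u ^ n) := by
  unfold IsUn at *
  rw [map_pow, hu, one_pow]

theorem IsUn.zpow {u : Qb} (hu : IsUn A u) (n : ℤ) : IsUn A (u ^ n) := by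
  unfold IsUn at *
  rw [map_zpow₀, hu, one_zpow]

theorem FixBy.refl (x : Qb) : FixBy A x x := fun _ _ h => h

theorem FixBy.of_mem_K0 (x : Qb) {c : Qb} (hc : c ∈ K0 A) : FixBy A x c :=
  fun s hs _ => (mem_K0_iff A c).1 hc s hs

theorem FixBy.natCast (x : Qb) (n : ℕ) : FixBy A x (n : Qb) := fun s _ _ => map_natCast s n

variable {A}

theorem FixBy.add {x c d : Qb} (hc : FixBy A x c) (hd : FixBy A x d) : FixBy A x (c + d) :=
  fun s hs h => by rw [map_add, hc s hs h, hd s hs h]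

theorem FixBy.sub {x c d : Qb} (hc : FixBy A x c) (hd : FixBy A x d) : FixBy A x (c - d) :=
  fun s hs h => by rw [map_sub, hc s hs h, hd s hs h]

theorem FixBy.mul {x c d : Qb} (hc : FixBy A x c) (hd : FixBy A x d) : FixBy A x (c * d) :=
  fun s hs h => by rw [map_mul, hc s hs h, hd s hs h]

theorem FixBy.inv {x c : Qb} (hc : FixBy A x c) : FixBy A x c⁻¹ :=
  fun s hs h => by rw [map_inv₀, hc s hs h]

theorem FixBy.div {x c d : Qb} (hc : FixBy A x c) (hd : FixBy A x d) : FixBy A x (c / d) :=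
  fun s hs h => by rw [map_div₀, hc s hs h, hd s hs h]

theorem FixBy.pow {x c : Qb} (hc : FixBy A x c) (n : ℕ) : FixBy A x (c ^ n) :=
  fun s hs h => by rw [map_pow, hc s hs h]

theorem FixBy.trans {x y z : Qb} (h : FixBy A x y) (h' : FixBy A y z) : FixBy A x z :=
  fun s hs hx => h' s hs (h s hs hx)

/-- `s x ↦ s c` is a well defined surjection `orb x → orb c` -/
theorem ncard_orb_le_of_fixBy {x c : Qb} (h : FixBy A x c) :
    (orb A c).ncard ≤ (orb A x).ncard := by
  classical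
  let g : Qb → Qb := fun y => if hy : y ∈ orb A x then hy.choose c else 0
  have hsub : orb A c ⊆ g '' orb A x := by
    rintro z ⟨t, ht, rfl⟩
    have hy : t x ∈ orb A x := ⟨t, ht, rfl⟩
    refine ⟨t x, hy, ?_⟩
    have hg : g (t x) = hy.choose c := dif_pos hy
    obtain ⟨hs, hsx⟩ := hy.choose_spec
    rw [hg]
    have h1 : (t⁻¹ * hy.choose) x = x := by
      rw [AlgEquiv.mul_apply, hsx]
      exact t.symm_apply_apply x
    have h2 := h _ (mul_mem (inv_mem ht) hs) h1
    rw [AlgEquiv.mul_apply] at h2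
    have h3 := congrArg t h2
    rwa [show t (t⁻¹ (hy.choose c)) = hy.choose c from t.apply_symm_apply _] at h3
  exact (Set.ncard_le_ncard hsub ((orb_finite A x).image g)).trans
    (Set.ncard_image_le (orb_finite A x))

end Fermat.Agent.S15.FL
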