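/-
S15 / block FL-1 (architect helper173), node FL-07 (proof helper183).
Dedekind-Artin independence over the inertia field, by a trace argument.
-/
import Fermat.Agent.S15.FL.Defs
import Fermat.Agent.S15.FL.Orbit

set_option autoImplicit false

namespace Fermat.Agent.S15.FL

open Fermat.Agent.Lib.InertiaField Polynomial

variable {A : ValuationSubring Qb}

/-- the inertia orbit of a tuple -/
def indepOrb (A : ValuationSubring Qb) {m : ℕ} (w : Fin m → Qb) : Set (Fin m → Qb) :=
  {w' | ∃ s ∈ Ine A, (fun k => s (w k)) = w'}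

theorem indepOrb_finite {m : ℕ} (w : Fin m → Qb) : (indepOrb A w).Finite := by
  refine (Set.Finite.pi fun k => orb_finite A (w k)).subset ?_
  rintro _ ⟨s, hs, rfl⟩ k _
  exact ⟨s, hs, rfl⟩

theorem indepOrb_apply_mem {m : ℕ} {w w' : Fin m → Qb} (hw' : w' ∈ indepOrb A w) {τ : GQ}
    (hτ : τ ∈ Ine A) : (fun k => τ (w' k)) ∈ indepOrb A w := by
  obtain ⟨s, hs, rfl⟩ := hw'
  exact ⟨τ * s, (Ine A).mul_mem hτ hs, rfl⟩

/-- Dedekind-Artin independence, by a trace argument.
If `d k0 ≠ 0` put `w k = d k / d k0`; then `∑ a_k σ(w_k) = 0` for all `σ` (multiply by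
`σ (d k0)⁻¹`).  The inertia orbit `O` of the tuple `w : Fin m → Qb` is finite (contained in the product
of the `orb A (w k)`); `T = ∑_{w' ∈ O} w'` has coordinates in `K0` (inertia permutes `O`),
`∑ a_k T_k = 0` and `T_k0 = card O ≠ 0`. -/
theorem eq_zero_of_indep {m : ℕ} {a : Fin m → Qb} (ha : IndepK0 A a) (d : Fin m → Qb)
    (h : ∀ σ ∈ Ine A, ∑ k, a k * σ (d k) = 0) : ∀ k, d k = 0 := by
  classical
  intro k0
  by_contra hk0
  set w : Fin m → Qb := fun k => d k / d k0 with hw
  have hw0 : ∀ σ ∈ Ine A, ∑ k, a k * σ (w k) = 0 := by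
    intro σ hσ
    have e : ∑ k, a k * σ (w k) = (∑ k, a k * σ (d k)) * (σ (d k0))⁻¹ := by
      rw [Finset.sum_mul]
      refine Finset.sum_congr rfl fun k _ => ?_
      rw [hw, map_div₀, div_eq_mul_inv, mul_assoc]
    rw [e, h σ hσ, zero_mul]
  set O : Finset (Fin m → Qb) := (indepOrb_finite (A := A) w).toFinset with hO
  have hmemO : ∀ w', w' ∈ O ↔ w' ∈ indepOrb A w := fun w' => Set.Finite.mem_toFinset _
  set T : Fin m → Qb := fun k => ∑ w' ∈ O, w' k with hT
  have hTK : ∀ k, T k ∈ K0 A := by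
    intro k
    rw [mem_K0_iff]
    intro τ hτ
    rw [hT]
    simp only
    rw [map_sum]
    refine Finset.sum_nbij' (fun w' k => τ (w' k)) (fun w' k => τ⁻¹ (w' k)) ?_ ?_ ?_ ?_ ?_
    · intro w' hw'
      exact (hmemO _).2 (indepOrb_apply_mem ((hmemO _).1 hw') hτ)
    · intro w' hw'
      exact (hmemO _).2 (indepOrb_apply_mem ((hmemO _).1 hw') ((Ine A).inv_mem hτ))
    · intro w' _
      funext k
      show τ⁻¹ (τ (w' k)) = w' k
      rw [← AlgEquiv.mul_apply, inv_mul_cancel, AlgEquiv.one_apply]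
    · intro w' _
      funext k
      show τ (τ⁻¹ (w' k)) = w' k
      rw [← AlgEquiv.mul_apply, mul_inv_cancel, AlgEquiv.one_apply]
    · intro w' _
      rfl
  have hsum : ∑ k, T k * a k = 0 := by
    have e : ∑ k, T k * a k = ∑ w' ∈ O, ∑ k, a k * w' k := by
      rw [Finset.sum_comm]
      refine Finset.sum_congr rfl fun k _ => ?_
      rw [hT]
      simp only
      rw [Finset.sum_mul]
      exact Finset.sum_congr rfl fun w' _ => mul_comm _ _
    rw [e]
    refine Finset.sum_eq_zero fun w' hw' => ?_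
    obtain ⟨s, hs, rfl⟩ := (hmemO _).1 hw'
    exact hw0 s hs
  have hTk0 : T k0 = (O.card : Qb) := by
    rw [hT]
    simp only
    rw [Finset.card_eq_sum_ones, Nat.cast_sum]
    refine Finset.sum_congr rfl fun w' hw' => ?_
    obtain ⟨s, hs, rfl⟩ := (hmemO _).1 hw'
    show s (w k0) = _
    rw [hw]
    simp only
    rw [div_self hk0, map_one, Nat.cast_one]
  have hcard : O.card ≠ 0 := by
    have : w ∈ O := (hmemO _).2 ⟨1, (Ine A).one_mem, rfl⟩
    exact Finset.card_ne_zero_of_mem this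
  have h0 := ha T hTK hsum k0
  rw [hTk0] at h0
  exact hcard (by exact_mod_cast h0)

/-- if `σ ↦ ∑ a_k σ(c_k)` is right invariant under `h`, then `h` fixes the `c_k` -/
theorem apply_eq_of_indep {m : ℕ} {a : Fin m → Qb} (ha : IndepK0 A a) (c : Fin m → Qb)
    {h : GQ} (hh : ∀ σ ∈ Ine A, ∑ k, a k * (σ * h) (c k) = ∑ k, a k * σ (c k)) :
    ∀ k, h (c k) = c k := by
  intro k
  have h0 := eq_zero_of_indep ha (fun k => h (c k) - c k) (fun σ hσ => by
    have e : ∑ k, a k * σ (h (c k) - c k) =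
        ∑ k, a k * (σ * h) (c k) - ∑ k, a k * σ (c k) := by
      rw [← Finset.sum_sub_distrib]
      refine Finset.sum_congr rfl fun k _ => ?_
      rw [map_sub, mul_sub, AlgEquiv.mul_apply]
    rw [e, hh σ hσ, sub_self]) k
  exact sub_eq_zero.1 h0

end Fermat.Agent.S15.FL
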