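/-
S15 / block FL-1 (architect helper173; proof helper193, task 2614).  Node FL-06: an `IsSI` representation with
`K0`-independent coefficients.
-/
import Fermat.Agent.S15.FL.Defs

set_option autoImplicit false

namespace Fermat.Agent.S15.FL

open Fermat.Agent.Lib.InertiaField Polynomial

variable {A : ValuationSubring Qb}

/-- elimination of one term from a representation with `K0`-dependent coefficients -/
theorem Red.step {F : GQ → Qb} {m : ℕ} (a c : Fin (m + 1) → Qb) (ha : ∀ k, a k ∈ A)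
    (hc : ∀ k, c k ∈ A) (hF : ∀ σ ∈ Ine A, F σ = ∑ k, a k * σ (c k)) (hdep : ¬ IndepK0 A a) :
    ∃ a' c' : Fin m → Qb, (∀ k, a' k ∈ A) ∧ (∀ k, c' k ∈ A) ∧
      ∀ σ ∈ Ine A, F σ = ∑ k, a' k * σ (c' k) := by
  unfold IndepK0 at hdep
  push Not at hdep
  obtain ⟨l, hl, hsum, k1, hk1⟩ := hdep
  obtain ⟨k0, -, hk0⟩ := Finset.exists_max_image Finset.univ (fun k => A.valuation (l k))
    ⟨k1, Finset.mem_univ _⟩
  have hl0 : l k0 ≠ 0 := by
    intro h0
    have h1 := hk0 k1 (Finset.mem_univ _)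
    rw [h0, map_zero, le_zero_iff, map_eq_zero] at h1
    exact hk1 h1
  have hμA : ∀ k, l k / l k0 ∈ A := by
    intro k
    rw [← A.valuation_le_one_iff, map_div₀]
    exact div_le_one_of_le₀ (hk0 k (Finset.mem_univ _)) zero_le
  have hμK : ∀ k, l k / l k0 ∈ K0 A := fun k => div_mem (hl k) (hl k0)
  have ha0 : a k0 = - ∑ i, l (k0.succAbove i) / l k0 * a (k0.succAbove i) := by
    rw [Fin.sum_univ_succAbove _ k0] at hsum
    have h2 : ∑ i, l (k0.succAbove i) / l k0 * a (k0.succAbove i) =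
        (∑ i, l (k0.succAbove i) * a (k0.succAbove i)) / l k0 := by
      rw [Finset.sum_div]
      exact Finset.sum_congr rfl fun i _ => by ring
    rw [h2, eq_neg_iff_add_eq_zero, ← mul_right_inj' hl0, mul_zero, mul_add,
      mul_div_cancel₀ _ hl0]
    exact hsum
  refine ⟨fun i => a (k0.succAbove i),
    fun i => c (k0.succAbove i) - l (k0.succAbove i) / l k0 * c k0, fun i => ha _,
    fun i => A.sub_mem (hc _) (A.mul_mem _ _ (hμA _) (hc _)), fun σ hσ => ?_⟩
  rw [hF σ hσ, Fin.sum_univ_succAbove _ k0, ha0, neg_mul, Finset.sum_mul, ← sub_eq_neg_add,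
    ← Finset.sum_sub_distrib]
  refine Finset.sum_congr rfl fun i _ => ?_
  rw [map_sub, map_mul, (mem_K0_iff A _).1 (hμK _) σ hσ]
  ring

/-- A representation with `K0`-independent coefficients.
Take a representation with `m` minimal.  If `∑ l_k a_k = 0`, `l ≠ 0`, choose `k0` with
`v(l_k0)` maximal, `μ_k = l_k / l_k0 ∈ K0 ∩ A`, `a_k0 = - ∑_{k ≠ k0} μ_k a_k`, so
`F σ = ∑_{k ≠ k0} a_k σ(c_k - μ_k c_k0)` (`σ μ_k = μ_k`): one term less. -/
theorem exists_indep {F : GQ → Qb} (h : S19.IsSI A F) :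
    ∃ (m : ℕ) (a c : Fin m → Qb), (∀ k, a k ∈ A) ∧ (∀ k, c k ∈ A) ∧
      (∀ σ ∈ Ine A, F σ = ∑ k, a k * σ (c k)) ∧ IndepK0 A a := by
  obtain ⟨m, a, c, ha, hc, hF⟩ := h
  induction m with
  | zero => exact ⟨0, a, c, ha, hc, hF, fun l _ _ k => k.elim0⟩
  | succ m ih =>
    by_cases hind : IndepK0 A a
    · exact ⟨m + 1, a, c, ha, hc, hF, hind⟩
    · obtain ⟨a', c', ha', hc', hF'⟩ := Red.step a c ha hc hF hind
      exact ih a' c' ha' hc' hF'

end Fermat.Agent.S15.FL
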