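/-
S15 / block FL-1 (architect helper173), node FL-03 (owner helper191): Lagrange interpolation,
`K0(π) = ∑ K0 π^i`.
-/
import Fermat.Agent.S15.FL.Defs
import Fermat.Agent.S15.FL.Orbit

set_option autoImplicit false

namespace Fermat.Agent.S15.FL

open Fermat.Agent.Lib.InertiaField Polynomial

variable {A : ValuationSubring Qb}

/-- Lagrange interpolation: `K0(π) = ∑ K0 π^i`.
`S` = orbit of `π`; for `y ∈ S` choose `s_y ∈ Ine A` with `s_y π = y`, put `val y = s_y c`,
`p = Lagrange.interpolate S id val`.  For `t ∈ Ine A`, `p.map t` has degree `< card S` and the same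
values as `p` on `S` (`t s_y' c = s_y c` if `t y' = y`, because `s_y⁻¹ t s_y'` fixes `π`), so
`p.map t = p`: the coefficients are in `K0`.  `p.eval π = c`. -/
theorem exists_expansion {π c : Qb} (hc : FixBy A π c) :
    ∃ x : ℕ → Qb, (∀ i, x i ∈ K0 A) ∧
      c = ∑ i ∈ Finset.range (orb A π).ncard, x i * π ^ i := by
  classical
  have hfin := orb_finite A π
  set S : Finset Qb := hfin.toFinset with hS
  have hcard : (orb A π).ncard = S.card := Set.ncard_eq_toFinset_card _ hfin
  have hmemS : ∀ y, y ∈ S ↔ y ∈ orb A π := fun y => hfin.mem_toFinset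
  -- the values
  let val : Qb → Qb := fun y => if h : y ∈ orb A π then h.choose c else 0
  have hval : ∀ s ∈ Ine A, val (s π) = s c := by
    intro s hs
    have hy : s π ∈ orb A π := ⟨s, hs, rfl⟩
    have h1 : val (s π) = hy.choose c := dif_pos hy
    obtain ⟨h2, h3⟩ := hy.choose_spec
    rw [h1]
    have h4 : (s⁻¹ * hy.choose) c = c := by
      apply hc _ (mul_mem (inv_mem hs) h2)
      rw [AlgEquiv.mul_apply, h3]
      exact s.symm_apply_apply π
    rw [AlgEquiv.mul_apply] at h4
    have h5 := congrArg s h4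
    rwa [show s (s⁻¹ (hy.choose c)) = hy.choose c from s.apply_symm_apply _] at h5
  set p : Qb[X] := Lagrange.interpolate S id val with hp
  have hdeg : p.degree < S.card := Lagrange.degree_interpolate_lt _ (Set.injOn_id _)
  have heval : ∀ y ∈ S, p.eval y = val y := fun y hy =>
    Lagrange.eval_interpolate_at_node val (Set.injOn_id _) hy
  -- invariance
  have hinv : ∀ t ∈ Ine A, p.map (t : Qb →+* Qb) = p := by
    intro t ht
    refine Polynomial.eq_of_degrees_lt_of_eval_finset_eq S
      (lt_of_le_of_lt (degree_map_le) hdeg) hdeg ?_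
    intro y hy
    obtain ⟨s, hs, rfl⟩ := (hmemS y).mp hy
    -- `y = t (t⁻¹ s π)`
    have hs' : t⁻¹ * s ∈ Ine A := mul_mem (inv_mem ht) hs
    have hy' : (t⁻¹ * s) π ∈ S := (hmemS _).mpr ⟨_, hs', rfl⟩
    have e1 : s π = (t : Qb →+* Qb) ((t⁻¹ * s) π) := by
      rw [AlgEquiv.mul_apply]
      exact (t.apply_symm_apply (s π)).symm
    rw [heval _ hy, hval s hs, e1, eval_map, eval₂_at_apply, heval _ hy', hval _ hs',
      AlgEquiv.mul_apply]
    exact t.apply_symm_apply (s c)
  refine ⟨fun i => p.coeff i, fun i => ?_, ?_⟩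
  · rw [mem_K0_iff]
    intro t ht
    have := congrArg (fun r => r.coeff i) (hinv t ht)
    simpa [coeff_map] using this
  · have hπ : π ∈ S := (hmemS π).mpr (mem_orb_self A π)
    have h1 : p.eval π = c := by
      rw [heval π hπ]
      have := hval 1 (one_mem _)
      simpa using this
    have hnat : p.natDegree < S.card := by
      by_cases hp0 : p = 0
      · rw [hp0, natDegree_zero]
        exact Finset.card_pos.mpr ⟨π, hπ⟩
      · exact (natDegree_lt_iff_degree_lt hp0).mpr hdeg
    rw [hcard, ← h1, eval_eq_sum_range' hnat]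

end Fermat.Agent.S15.FL
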