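/-
S15 / block FL-1 (architect helper173).  Node FL-02: the orbit polynomial
`∏_{y ∈ orb A x} (X - y)`, i.e. the minimal polynomial of `x` over the inertia field `K0 A`.
-/
import Fermat.Agent.S15.FL.Defs
import Fermat.Agent.S15.FL.Orbit

set_option autoImplicit false

namespace Fermat.Agent.S15.FL

open Fermat.Agent.Lib.InertiaField Polynomial

variable (A : ValuationSubring Qb)

/-- the minimal polynomial of `x` over `K0 A` -/
noncomputable def orbPoly (x : Qb) : Qb[X] := ∏ y ∈ (orb_finite A x).toFinset, (X - C y)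

theorem orbPoly_monic (x : Qb) : (orbPoly A x).Monic :=
  monic_prod_of_monic _ _ fun y _ => monic_X_sub_C y

theorem orbPoly_natDegree (x : Qb) : (orbPoly A x).natDegree = (orb A x).ncard := by
  unfold orbPoly
  rw [natDegree_prod_of_monic _ _ fun y _ => monic_X_sub_C y,
    Set.ncard_eq_toFinset_card _ (orb_finite A x)]
  simp

theorem orbPoly_eval (x : Qb) : (orbPoly A x).eval x = 0 := by
  unfold orbPoly
  rw [eval_prod]
  refine Finset.prod_eq_zero ((orb_finite A x).mem_toFinset.2 (mem_orb_self A x)) ?_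
  simp

theorem orbPoly_coeff_mem_K0 (x : Qb) (i : ℕ) : (orbPoly A x).coeff i ∈ K0 A := by
  rw [mem_K0_iff]
  intro s hs
  have hmap : (orbPoly A x).map (s : Qb →+* Qb) = orbPoly A x := by
    unfold orbPoly
    rw [Polynomial.map_prod]
    refine Finset.prod_bij (fun y _ => s y) ?_ ?_ ?_ ?_
    · intro y hy
      rw [Set.Finite.mem_toFinset] at hy ⊢
      exact apply_mem_orb A hy hs
    · intro y _ z _ hyz
      exact s.injective hyz
    · intro z hz
      rw [Set.Finite.mem_toFinset] at hz
      refine ⟨s⁻¹ z, ?_, ?_⟩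
      · rw [Set.Finite.mem_toFinset]
        exact apply_mem_orb A hz (inv_mem hs)
      · exact AlgEquiv.apply_symm_apply s z
    · intro y _
      simp
  have h := congrArg (fun p => p.coeff i) hmap
  simpa [coeff_map] using h

variable {A}

/-- the conjugates of a root of `h ∈ K0[X]` are roots of `h` -/
theorem ncard_orb_le_natDegree {h : Qb[X]} (h0 : h ≠ 0) (hc : ∀ i, h.coeff i ∈ K0 A) {ρ : Qb}
    (hρ : h.eval ρ = 0) : (orb A ρ).ncard ≤ h.natDegree := by
  rw [Set.ncard_eq_toFinset_card _ (orb_finite A ρ)]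
  have hsub : (orb_finite A ρ).toFinset ⊆ h.roots.toFinset := by
    intro y hy
    rw [Set.Finite.mem_toFinset] at hy
    obtain ⟨s, hs, rfl⟩ := hy
    rw [Multiset.mem_toFinset, mem_roots h0, IsRoot.def]
    have hmap : h.map (s : Qb →+* Qb) = h := by
      ext i
      rw [coeff_map]
      exact (mem_K0_iff A _).1 (hc i) s hs
    have h1 : (h.map (s : Qb →+* Qb)).eval ((s : Qb →+* Qb) ρ) = (s : Qb →+* Qb) (h.eval ρ) :=
      eval_map_apply _ _
    rw [hmap, hρ, map_zero] at h1
    exact h1
  calc (orb_finite A ρ).toFinset.card ≤ h.roots.toFinset.card := Finset.card_le_card hsub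
    _ ≤ Multiset.card h.roots := Multiset.toFinset_card_le _
    _ ≤ h.natDegree := card_roots' h

end Fermat.Agent.S15.FL
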