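/-
S15 / block FL-1 (architect helper173), node FL-04 (task 2610):
the terms `x_i π^i` (`x_i ∈ K0`, `π^n = q * unit`, `i < n`) have pairwise distinct valuations, hence the
valuation of their sum is the maximum of the valuations of the terms.
-/
import Fermat.Agent.S15.FL.Defs

set_option autoImplicit false

namespace Fermat.Agent.S15.FL

open Fermat.Agent.Lib.InertiaField Polynomial

variable {A : ValuationSubring Qb} {q : ℕ}

/-- `v(x π^i)^n = v(q)^(n k + i)` for a nonzero `x ∈ K0`. -/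
theorem valIndep_term (hq : q.Prime) (hA : A.LiesOverPrime q) {π u : Qb} {n : ℕ}
    (hu : IsUn A u) (hπ : π ^ n = (q : Qb) * u) {x : Qb} (hx : x ∈ K0 A) (hx0 : x ≠ 0) (i : ℕ) :
    ∃ k : ℤ, A.valuation (x * π ^ i) ^ n = A.valuation (q : Qb) ^ ((n : ℤ) * k + i) := by
  obtain ⟨k, w, -, hw1, hw2, rfl⟩ := exists_zpow_mul_unit A q hq hA hx hx0
  have hq0 : (q : Qb) ≠ 0 := by exact_mod_cast hq.ne_zero
  have hv0 : A.valuation (q : Qb) ≠ 0 := (Valuation.ne_zero_iff _).2 hq0
  have hw0 : w ≠ 0 := by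
    rintro rfl
    exact hx0 (mul_zero _)
  have hw : A.valuation w = 1 := by
    have h1 : A.valuation w ≤ 1 := (A.valuation_le_one_iff w).2 hw1
    have h2 : A.valuation w⁻¹ ≤ 1 := (A.valuation_le_one_iff _).2 hw2
    rw [map_inv₀] at h2
    have h3 : A.valuation w ≠ 0 := (Valuation.ne_zero_iff _).2 hw0
    exact le_antisymm h1 ((inv_le_one₀ (zero_lt_iff.2 h3)).1 h2)
  have hπv : A.valuation π ^ n = A.valuation (q : Qb) := by
    rw [← map_pow, hπ, map_mul, hu, mul_one]
  refine ⟨k, ?_⟩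
  rw [map_mul, map_mul, hw, mul_one, map_zpow₀, map_pow, mul_pow, ← pow_mul, mul_comm i n, pow_mul,
    hπv, zpow_add₀ hv0, zpow_natCast, ← zpow_natCast (A.valuation (q : Qb) ^ k) n, ← zpow_mul,
    mul_comm k]

/-- distinct nonzero terms have distinct valuations. -/
theorem valIndep_ne (hq : q.Prime) (hA : A.LiesOverPrime q) {π u : Qb} {n : ℕ}
    (hu : IsUn A u) (hπ : π ^ n = (q : Qb) * u) {x y : Qb} (hx : x ∈ K0 A) (hx0 : x ≠ 0)
    (hy : y ∈ K0 A) (hy0 : y ≠ 0) {i j : ℕ} (hi : i < n) (hj : j < n) (hij : i ≠ j) :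
    A.valuation (x * π ^ i) ≠ A.valuation (y * π ^ j) := by
  intro h
  obtain ⟨k, hk⟩ := valIndep_term hq hA hu hπ hx hx0 i
  obtain ⟨l, hl⟩ := valIndep_term hq hA hu hπ hy hy0 j
  have hq0 : (q : Qb) ≠ 0 := by exact_mod_cast hq.ne_zero
  have hv0 : A.valuation (q : Qb) ≠ 0 := (Valuation.ne_zero_iff _).2 hq0
  have hv1 : A.valuation (q : Qb) ≠ 1 := (A.mem_nonunits_iff.1 hA).ne
  rw [h, hl] at hk
  have h1 : (n : ℤ) * l + j = (n : ℤ) * k + i :=
    zpow_right_injective₀ (zero_lt_iff.2 hv0) hv1 hk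
  apply hij
  have h2 : ((i : ℤ)) % n = (j : ℤ) % n := by
    have : (i : ℤ) = j + n * (l - k) := by linarith
    rw [this, Int.add_mul_emod_self_left]
  rw [Int.emod_eq_of_lt (by positivity) (by exact_mod_cast hi),
    Int.emod_eq_of_lt (by positivity) (by exact_mod_cast hj)] at h2
  exact_mod_cast h2

/-- Nonzero `x_i ∈ K0` is `q^(k_i) * unit` (`exists_zpow_mul_unit`), so
`v(x_i π^i)^n = v(q)^(n k_i + i)`, pairwise distinct for distinct `i < n` with `x_i ≠ 0`.  Hence the
valuation of the sum is the maximum of the valuations of the terms. -/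
theorem valuation_sum_eq (hq : q.Prime) (hA : A.LiesOverPrime q) {π u : Qb} {n : ℕ} (hn : 0 < n)
    (hu : IsUn A u) (hπ : π ^ n = (q : Qb) * u) (x : ℕ → Qb) (hx : ∀ i, x i ∈ K0 A) :
    ∀ i < n, A.valuation (x i * π ^ i) ≤ A.valuation (∑ i ∈ Finset.range n, x i * π ^ i) := by
  classical
  intro i hi
  obtain ⟨j, hj, hmax⟩ := Finset.exists_max_image (Finset.range n)
    (fun i => A.valuation (x i * π ^ i)) ⟨0, Finset.mem_range.2 hn⟩
  have hq0 : (q : Qb) ≠ 0 := by exact_mod_cast hq.ne_zero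
  have hu0 : u ≠ 0 := by
    rintro rfl
    have : A.valuation (0 : Qb) = 1 := hu
    rw [map_zero] at this
    exact zero_ne_one this
  have hπ0 : π ≠ 0 := by
    rintro rfl
    rw [zero_pow hn.ne'] at hπ
    exact mul_ne_zero hq0 hu0 hπ.symm
  rcases eq_or_ne (x j) 0 with hxj | hxj
  · have h1 := hmax i (Finset.mem_range.2 hi)
    simp only [hxj, zero_mul, map_zero] at h1
    exact h1.trans zero_le
  · rw [Valuation.map_sum_eq_of_lt (j := j) _ hj]
    · exact hmax i (Finset.mem_range.2 hi)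
    · intro l hl
      rw [Finset.mem_sdiff, Finset.mem_singleton] at hl
      refine lt_of_le_of_ne (hmax l hl.1) ?_
      rcases eq_or_ne (x l) 0 with hxl | hxl
      · rw [hxl, zero_mul, map_zero]
        exact ((Valuation.ne_zero_iff _).2 (mul_ne_zero hxj (pow_ne_zero _ hπ0))).symm
      · exact valIndep_ne hq hA hu hπ (hx l) hxl (hx j) hxj (Finset.mem_range.1 hl.1)
          (Finset.mem_range.1 hj) hl.2

end Fermat.Agent.S15.FL
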