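/-
S15 / block FL-1 (architect helper173).  Node FL-04b (owner helper186): consequences of
`valuation_sum_eq`.
-/
import Fermat.Agent.S15.FL.Defs
import Fermat.Agent.S15.FL.Orbit
import Fermat.Agent.S15.FL.ValIndep

set_option autoImplicit false

namespace Fermat.Agent.S15.FL

open Fermat.Agent.Lib.InertiaField Polynomial

variable {A : ValuationSubring Qb} {q : ℕ}

/-- an inequality in a linearly ordered group with zero -/
theorem valIndepB_aux {Γ : Type*} [LinearOrderedCommGroupWithZero Γ] {a b c : Γ} {n i : ℕ}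
    (hb : b < 1) (hc : c ^ n = b) (hab : 1 ≤ a * b) (hac : a * c ^ i ≤ 1) (hi : i < n) : False := by
  have h1 : a ^ n * b ^ i ≤ 1 := by
    have := pow_le_one' hac n
    rwa [mul_pow, ← pow_mul, mul_comm i n, pow_mul, hc] at this
  have h2 : 1 ≤ a ^ n * b ^ n := by
    have := one_le_pow_of_one_le' hab n
    rwa [mul_pow] at this
  obtain ⟨k, rfl⟩ := Nat.exists_eq_add_of_lt hi
  have h3 : b ^ (k + 1) < 1 := pow_lt_one₀ zero_le hb (Nat.succ_ne_zero k)
  have h4 : a ^ (i + k + 1) * b ^ (i + k + 1) ≤ 1 * b ^ (k + 1) := by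
    rw [add_assoc, pow_add b, ← mul_assoc]
    exact mul_le_mul' (by rwa [← add_assoc]) le_rfl
  rw [one_mul] at h4
  exact absurd (lt_of_le_of_lt (h2.trans h4) h3) (lt_irrefl _)

theorem valIndepB_valuation_pow {π u : Qb} {n : ℕ} (hu : IsUn A u) (hπ : π ^ n = (q : Qb) * u) :
    A.valuation π ^ n = A.valuation (q : Qb) := by
  rw [← map_pow, hπ, map_mul, hu, mul_one]

theorem valIndepB_mem (hA : A.LiesOverPrime q) {π u : Qb} {n : ℕ}
    (hu : IsUn A u) (hπ : π ^ n = (q : Qb) * u) : π ∈ A := by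
  rw [← A.valuation_le_one_iff]
  have hvq : A.valuation (q : Qb) < 1 := (A.mem_nonunits_iff).mp hA
  by_contra hcon
  rw [not_le] at hcon
  have h1 : 1 ≤ A.valuation π ^ n := one_le_pow_of_one_le' hcon.le n
  rw [valIndepB_valuation_pow hu hπ] at h1
  exact absurd hvq (not_lt.2 h1)

theorem sum_mem_iff (hq : q.Prime) (hA : A.LiesOverPrime q) {π u : Qb} {n : ℕ} (hn : 0 < n)
    (hu : IsUn A u) (hπ : π ^ n = (q : Qb) * u) (x : ℕ → Qb) (hx : ∀ i, x i ∈ K0 A) :
    (∑ i ∈ Finset.range n, x i * π ^ i) ∈ A ↔ ∀ i < n, x i ∈ A := by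
  have hπA : π ∈ A := valIndepB_mem hA hu hπ
  have hvq : A.valuation (q : Qb) < 1 := (A.mem_nonunits_iff).mp hA
  have hq0 : (q : Qb) ≠ 0 := by exact_mod_cast hq.ne_zero
  constructor
  · intro hs i hi
    have h1 : A.valuation (x i * π ^ i) ≤ 1 :=
      (valuation_sum_eq hq hA hn hu hπ x hx i hi).trans ((A.valuation_le_one_iff _).2 hs)
    by_contra hcon
    have hx0 : x i ≠ 0 := by
      intro h0
      exact hcon (h0 ▸ A.zero_mem)
    have hinv : (x i)⁻¹ ∈ A.nonunits := by
      rw [A.mem_nonunits_iff, map_inv₀]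
      rw [← A.valuation_le_one_iff, not_le] at hcon
      exact inv_lt_one_of_one_lt₀ hcon
    have h2 : (x i)⁻¹ / q ∈ A := div_mem A q hq hA (inv_mem (hx i)) hinv
    have h3 : 1 ≤ A.valuation (x i) * A.valuation (q : Qb) := by
      rw [← A.valuation_le_one_iff, map_div₀, map_inv₀] at h2
      have hv1 : A.valuation (x i) ≠ 0 := (_root_.map_ne_zero _).2 hx0
      have hv2 : A.valuation (q : Qb) ≠ 0 := (_root_.map_ne_zero _).2 hq0
      have h4 : (A.valuation (x i))⁻¹ / A.valuation (q : Qb) =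
          (A.valuation (x i) * A.valuation (q : Qb))⁻¹ := by
        rw [mul_inv, div_eq_mul_inv]
      rw [h4] at h2
      exact (inv_le_one₀ (zero_lt_iff.2 (mul_ne_zero hv1 hv2))).1 h2
    rw [map_mul, map_pow] at h1
    exact valIndepB_aux hvq (valIndepB_valuation_pow hu hπ) h3 h1 hi
  · intro h
    refine sum_mem fun i hi => A.mul_mem _ _ (h i (Finset.mem_range.1 hi)) (pow_mem hπA i)

theorem sum_eq_zero_iff (hq : q.Prime) (hA : A.LiesOverPrime q) {π u : Qb} {n : ℕ} (hn : 0 < n)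
    (hu : IsUn A u) (hπ : π ^ n = (q : Qb) * u) (x : ℕ → Qb) (hx : ∀ i, x i ∈ K0 A) :
    (∑ i ∈ Finset.range n, x i * π ^ i) = 0 ↔ ∀ i < n, x i = 0 := by
  constructor
  · intro hs i hi
    have h1 := valuation_sum_eq hq hA hn hu hπ x hx i hi
    rw [hs, map_zero, le_zero_iff, map_eq_zero] at h1
    rcases mul_eq_zero.1 h1 with h2 | h2
    · exact h2
    · exfalso
      have hq0 : (q : Qb) ≠ 0 := by exact_mod_cast hq.ne_zero
      have hu0 : u ≠ 0 := by
        rintro rfl
        rw [IsUn, map_zero] at hu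
        exact zero_ne_one hu
      have h3 : π = 0 := pow_eq_zero_iff (M₀ := Qb) (n := i) (by
        rintro rfl
        simp at h2) |>.1 h2
      rw [h3, zero_pow hn.ne'] at hπ
      exact mul_ne_zero hq0 hu0 hπ.symm
  · intro h
    exact Finset.sum_eq_zero fun i hi => by rw [h i (Finset.mem_range.1 hi), zero_mul]

end Fermat.Agent.S15.FL
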