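/-
S15 / block FL-1 (architect helper173).  Node FL-05a: first properties of uniformisers `π` with
`π ^ n = q * unit`.
-/
import Fermat.Agent.S15.FL.Defs
import Fermat.Agent.S15.FL.Orbit
import Fermat.Agent.S15.FL.OrbPoly
import Fermat.Agent.S15.FL.ValIndepB

set_option autoImplicit false

namespace Fermat.Agent.S15.FL

open Fermat.Agent.Lib.InertiaField Polynomial

variable {A : ValuationSubring Qb} {q : ℕ}

theorem mem_nonunits_of_pow (hA : A.LiesOverPrime q) {π u : Qb} {n : ℕ}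
    (hu : IsUn A u) (hπ : π ^ n = (q : Qb) * u) : π ∈ A.nonunits := by
  have hq1 : A.valuation (q : Qb) < 1 := (ValuationSubring.mem_nonunits_iff A).1 hA
  rw [ValuationSubring.mem_nonunits_iff]
  by_contra hcon
  have h1 : 1 ≤ A.valuation π := not_lt.1 hcon
  have h2 : 1 ≤ A.valuation π ^ n := one_le_pow₀ h1
  have h3 : A.valuation π ^ n = A.valuation (q : Qb) := by
    have hu' : A.valuation u = 1 := hu
    rw [← map_pow, hπ, map_mul, hu', mul_one]
  rw [h3] at h2
  exact absurd hq1 (not_lt.2 h2)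

/-- `[K0(π) : K0] ≥ n` (else `orbPoly` gives a relation between `1, π, …, π^(n-1)`) -/
theorem le_ncard_orb (hq : q.Prime) (hA : A.LiesOverPrime q) {π u : Qb} {n : ℕ} (hn : 0 < n)
    (hu : IsUn A u) (hπ : π ^ n = (q : Qb) * u) : n ≤ (orb A π).ncard := by
  by_contra hcon
  have hlt : (orb A π).ncard < n := not_le.1 hcon
  have hdeg : (orbPoly A π).natDegree < n := by rw [orbPoly_natDegree]; exact hlt
  have h0 : ∑ i ∈ Finset.range n, (orbPoly A π).coeff i * π ^ i = 0 := by
    rw [← Polynomial.eval_eq_sum_range' hdeg, orbPoly_eval]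
  have h1 := (sum_eq_zero_iff hq hA hn hu hπ (fun i => (orbPoly A π).coeff i)
    (fun i => orbPoly_coeff_mem_K0 A π i)).1 h0 _ hdeg
  have h2 : (orbPoly A π).coeff (orbPoly A π).natDegree = 1 := (orbPoly_monic A π).coeff_natDegree
  rw [h2] at h1
  exact one_ne_zero h1

theorem IsUnif.mem_nonunits (hA : A.LiesOverPrime q) {π : Qb} {n : ℕ} (h : IsUnif A q π n) :
    π ∈ A.nonunits := by
  obtain ⟨u, hu, hπ⟩ := h.exists_unit
  exact mem_nonunits_of_pow hA hu hπ

theorem IsUnif.mem (hA : A.LiesOverPrime q) {π : Qb} {n : ℕ} (h : IsUnif A q π n) : π ∈ A := by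
  have h1 := (ValuationSubring.mem_nonunits_iff A).1 (h.mem_nonunits hA)
  exact (ValuationSubring.valuation_le_one_iff A π).1 h1.le

theorem IsUnif.ne_zero (hq : q.Prime) {π : Qb} {n : ℕ} (h : IsUnif A q π n) : π ≠ 0 := by
  obtain ⟨u, hu, hπ⟩ := h.exists_unit
  intro h0
  rw [h0, zero_pow h.pos.ne'] at hπ
  have hq0 : (q : Qb) ≠ 0 := Nat.cast_ne_zero.2 hq.ne_zero
  exact mul_ne_zero hq0 (IsUn.ne_zero A hu) hπ.symm

end Fermat.Agent.S15.FL
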