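/-
S15 / block FL-1 (architect helper173), node FL-05b (helper293): integral expansions in a
uniformiser of a totally ramified extension of the inertia field.
-/
import Fermat.Agent.S15.FL.Defs
import Fermat.Agent.S15.FL.Orbit
import Fermat.Agent.S15.FL.Interp
import Fermat.Agent.S15.FL.ValIndepB
import Fermat.Agent.S15.FL.UnifA

set_option autoImplicit false

namespace Fermat.Agent.S15.FL

open Fermat.Agent.Lib.InertiaField Polynomial

variable {A : ValuationSubring Qb} {q : ℕ}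

/-- `A ∩ K0(π) = ⊕ (A ∩ K0) π^i` (`exists_expansion` + `sum_mem_iff`) -/
theorem IsUnif.exists_expansion (hq : q.Prime) (hA : A.LiesOverPrime q) {π : Qb} {n : ℕ}
    (h : IsUnif A q π n) {c : Qb} (hc : FixBy A π c) (hcA : c ∈ A) :
    ∃ x : ℕ → Qb, (∀ i, x i ∈ K0 A ∧ x i ∈ A) ∧ c = ∑ i ∈ Finset.range n, x i * π ^ i := by
  obtain ⟨x, hx, hcx⟩ := Fermat.Agent.S15.FL.exists_expansion hc
  rw [h.card] at hcx
  obtain ⟨u, hu, hπ⟩ := h.exists_unit
  have hmem := (sum_mem_iff hq hA h.pos hu hπ x hx).mp (hcx ▸ hcA)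
  refine ⟨fun i => if i < n then x i else 0, fun i => ?_, ?_⟩
  · by_cases hi : i < n
    · simp only [if_pos hi]
      exact ⟨hx i, hmem i hi⟩
    · simp only [if_neg hi]
      exact ⟨zero_mem _, zero_mem _⟩
  · rw [hcx]
    refine Finset.sum_congr rfl fun i hi => ?_
    simp only [if_pos (Finset.mem_range.mp hi)]

/-- `π` generates the maximal ideal of `A ∩ K0(π)`: `x_0 = c - π (…) ∈ K0 ∩ 𝔪`, so `x_0 / q ∈ A`
(`div_mem`) and `q / π = π^(n-1) u⁻¹ ∈ A`. -/
theorem IsUnif.div_mem (hq : q.Prime) (hA : A.LiesOverPrime q) {π : Qb} {n : ℕ}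
    (h : IsUnif A q π n) {c : Qb} (hc : FixBy A π c) (hcA : c ∈ A.nonunits) : c / π ∈ A := by
  obtain ⟨x, hx, hcx⟩ := h.exists_expansion hq hA hc (A.nonunits_subset hcA)
  obtain ⟨u, hu, hπ⟩ := h.exists_unit
  obtain ⟨m, rfl⟩ : ∃ m, n = m + 1 := ⟨n - 1, (Nat.sub_add_cancel h.pos).symm⟩
  have hπ0 : π ≠ 0 := h.ne_zero hq
  have hπA : π ∈ A := h.mem hA
  have hπn : π ∈ A.nonunits := h.mem_nonunits hA
  have hq0 : (q : Qb) ≠ 0 := by exact_mod_cast hq.ne_zero
  have hu0 : u ≠ 0 := IsUn.ne_zero A hu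
  set r := ∑ i ∈ Finset.range m, x (i + 1) * π ^ i with hr
  have hrA : r ∈ A := sum_mem fun i _ => mul_mem (hx _).2 (pow_mem hπA i)
  have hsplit : c = π * r + x 0 := by
    rw [hcx, Finset.sum_range_succ', pow_zero, mul_one, hr, Finset.mul_sum]
    congr 1
    refine Finset.sum_congr rfl fun i _ => ?_
    rw [pow_succ]
    ring
  have hx0 : x 0 ∈ A.nonunits := by
    have h1 : x 0 = c - π * r := by rw [hsplit]; ring
    rw [ValuationSubring.mem_nonunits_iff] at hcA hπn ⊢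
    rw [h1]
    refine Valuation.map_sub_lt _ hcA ?_
    rw [map_mul]
    exact (mul_le_of_le_one_right' ((A.valuation_le_one_iff r).mpr hrA)).trans_lt hπn
  have hdiv : x 0 / q ∈ A := Fermat.Agent.Lib.InertiaField.div_mem A q hq hA (hx 0).1 hx0
  have hqπ : (q : Qb) / π = π ^ m * u⁻¹ := by
    rw [pow_succ] at hπ
    field_simp
    rw [← hπ]
    ring
  have hfinal : c / π = r + x 0 / q * (π ^ m * u⁻¹) := by
    rw [← hqπ, hsplit]
    field_simp
  rw [hfinal]
  exact add_mem hrA (mul_mem hdiv (mul_mem (pow_mem hπA m) (IsUn.inv_mem A hu)))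

end Fermat.Agent.S15.FL
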