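/-
S15 / block FL-1 (architect helper173, proof helper189).  Node FL-09a: a function of class `S_I`
which is right invariant under the stabiliser of the uniformiser `π` is `s ↦ P (s π)` with
`P ∈ A[X]`.
-/
import Fermat.Agent.S15.FL.Defs
import Fermat.Agent.S15.FL.Orbit
import Fermat.Agent.S15.FL.UnifB
import Fermat.Agent.S15.FL.Red
import Fermat.Agent.S15.FL.Indep

set_option autoImplicit false

namespace Fermat.Agent.S15.FL

open Fermat.Agent.Lib.InertiaField Polynomial

variable {A : ValuationSubring Qb} {q : ℕ}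

/-- `exists_indep` gives `a, c`; `hinv` + `apply_eq_of_indep` give `FixBy A π (c k)`;
`IsUnif.exists_expansion` gives `c k = ∑ x k i π^i`; `P = ∑_i C (∑_k a k * x k i) X^i`. -/
theorem exists_poly (hq : q.Prime) (hA : A.LiesOverPrime q) {π : Qb} {n : ℕ}
    (hπ : IsUnif A q π n) {F : GQ → Qb} (hF : S19.IsSI A F)
    (hinv : ∀ s ∈ Ine A, ∀ h ∈ Ine A, h π = π → F (s * h) = F s) :
    ∃ P : Qb[X], (∀ i, P.coeff i ∈ A) ∧ ∀ s ∈ Ine A, P.eval (s π) = F s := by
  classical
  obtain ⟨m, a, c, haA, hcA, hFs, hind⟩ := exists_indep hF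
  have hfix : ∀ k, FixBy A π (c k) := by
    intro k h hh hhπ
    refine apply_eq_of_indep hind c (h := h) ?_ k
    intro σ hσ
    rw [← hFs σ hσ, ← hFs (σ * h) ((Ine A).mul_mem hσ hh)]
    exact hinv σ hσ h hh hhπ
  have hex : ∀ k, ∃ x : ℕ → Qb, (∀ i, x i ∈ K0 A ∧ x i ∈ A) ∧
      c k = ∑ i ∈ Finset.range n, x i * π ^ i := fun k =>
    IsUnif.exists_expansion hq hA hπ (hfix k) (hcA k)
  choose x hx hc using hex
  refine ⟨∑ i ∈ Finset.range n, C (∑ k, a k * x k i) * X ^ i, ?_, ?_⟩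
  · intro j
    rw [finsetSum_coeff]
    refine A.toSubring.sum_mem fun i _ => ?_
    rw [coeff_C_mul, coeff_X_pow]
    split_ifs
    · rw [mul_one]
      exact A.toSubring.sum_mem fun k _ => A.mul_mem _ _ (haA k) (hx k i).2
    · rw [mul_zero]
      exact A.zero_mem
  · intro s hs
    rw [hFs s hs, eval_finsetSum]
    simp only [eval_mul, eval_C, eval_pow, eval_X, Finset.sum_mul]
    rw [Finset.sum_comm]
    refine Finset.sum_congr rfl fun k _ => ?_
    conv_rhs => rw [hc k]
    rw [map_sum, Finset.mul_sum]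
    refine Finset.sum_congr rfl fun i _ => ?_
    rw [map_mul, map_pow, (mem_K0_iff A _).1 (hx k i).1 s hs, mul_assoc]

end Fermat.Agent.S15.FL
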