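/-
S15 / block FL-1 (architect helper173).  Node FL-08: distinct roots in `A` divide `P` in `A[X]`.
-/
import Fermat.Agent.S15.FL.Defs

set_option autoImplicit false

namespace Fermat.Agent.S15.FL

open Fermat.Agent.Lib.InertiaField Polynomial

variable {A : ValuationSubring Qb}

/-- distinct roots in a domain: the product of the `X - y` divides the polynomial. -/
theorem poly_prod_X_sub_C_dvd {R : Type*} [CommRing R] [IsDomain R] (P : R[X]) (S : Finset R)
    (h : ∀ y ∈ S, P.eval y = 0) : (∏ y ∈ S, (X - C y)) ∣ P := by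
  rcases eq_or_ne P 0 with rfl | hP
  · exact dvd_zero _
  · refine (Multiset.prod_X_sub_C_dvd_iff_le_roots hP S.val).2 ?_
    rw [Multiset.le_iff_subset S.nodup]
    intro y hy
    exact (mem_roots hP).2 (h y hy)

/-- pure algebra: lift `P` to `A[X]`; the `X - y` (`y ∈ S` distinct roots in the domain `A`) divide it
(`Multiset.prod_X_sub_C_dvd_iff_le_roots` or induction on `S` with `dvd_iff_isRoot`) -/
theorem eval_eq_mul_prod (P : Qb[X]) (hP : ∀ i, P.coeff i ∈ A) (S : Finset Qb)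
    (hS : ∀ y ∈ S, y ∈ A) (hroot : ∀ y ∈ S, P.eval y = 0) {x : Qb} (hx : x ∈ A) :
    ∃ Q ∈ A, P.eval x = Q * ∏ y ∈ S, (x - y) := by
  classical
  have hl : P ∈ Polynomial.lifts A.subtype :=
    (Polynomial.lifts_iff_coeff_lifts P).2 fun n => ⟨⟨P.coeff n, hP n⟩, rfl⟩
  obtain ⟨P', rfl⟩ := (Polynomial.mem_lifts P).1 hl
  have hev : ∀ z : A, (P'.map A.subtype).eval (z : Qb) = ((P'.eval z : A) : Qb) := by
    intro z
    rw [eval_map]
    exact eval₂_at_apply A.subtype z
  obtain ⟨R, hR⟩ := poly_prod_X_sub_C_dvd P' (S.subtype (· ∈ A)) (by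
    intro y hy
    have h1 := hroot (y : Qb) (Finset.mem_subtype.1 hy)
    rw [hev] at h1
    exact Subtype.ext h1)
  refine ⟨(R.eval ⟨x, hx⟩ : A), (R.eval ⟨x, hx⟩ : A).2, ?_⟩
  have h2 := hev ⟨x, hx⟩
  rw [h2, hR, eval_mul, eval_prod, mul_comm]
  have h3 : ((∏ y ∈ S.subtype (· ∈ A), eval (⟨x, hx⟩ : A) (X - C y) : A) : Qb) =
      ∏ y ∈ S, (x - y) := by
    rw [← Finset.prod_subtype_of_mem (fun y => x - y) hS]
    rw [← ValuationSubring.subtype_apply, map_prod]
    refine Finset.prod_congr rfl fun y _ => ?_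
    simp
  rw [← h3]
  rfl

end Fermat.Agent.S15.FL
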