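/-
S15 / block FL-1 (architect helper173).  Node FL-09b (task 2618, helper122): THEOREM DISC.
-/
import Fermat.Agent.S15.FL.Defs
import Fermat.Agent.S15.FL.Orbit
import Fermat.Agent.S15.FL.UnifA
import Fermat.Agent.S15.FL.DiscPoly
import Fermat.Agent.S15.FL.Poly

set_option autoImplicit false

namespace Fermat.Agent.S15.FL

open Fermat.Agent.Lib.InertiaField Polynomial

variable {A : ValuationSubring Qb} {q : ℕ}

/-- THEOREM DISC -/
theorem disc (hq : q.Prime) (hA : A.LiesOverPrime q) {π : Qb} {n : ℕ}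
    (hπ : IsUnif A q π n) {F : GQ → Qb} (hF : S19.IsSI A F)
    (h0 : ∀ s ∈ Ine A, s π ≠ π → F s = 0) (h1 : ∀ s ∈ Ine A, s π = π → F s = F 1) :
    ∃ Q ∈ A, F 1 = Q * ∏ y ∈ (orb_finite A π).toFinset.erase π, (π - y) := by
  have hinv : ∀ s ∈ Ine A, ∀ h ∈ Ine A, h π = π → F (s * h) = F s := by
    intro s hs h hh hhπ
    have hsh : (s * h) π = s π := by rw [AlgEquiv.mul_apply, hhπ]
    by_cases hsπ : s π = π
    · rw [h1 s hs hsπ, h1 (s * h) (mul_mem hs hh) (hsh.trans hsπ)]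
    · rw [h0 s hs hsπ, h0 (s * h) (mul_mem hs hh) (by rw [hsh]; exact hsπ)]
  obtain ⟨P, hP, hPev⟩ := exists_poly hq hA hπ hF hinv
  have hπA : π ∈ A := hπ.mem hA
  obtain ⟨Q, hQ, hQev⟩ := eval_eq_mul_prod P hP ((orb_finite A π).toFinset.erase π)
    (fun y hy => by
      rw [Finset.mem_erase, Set.Finite.mem_toFinset] at hy
      exact mem_of_mem_orb A hy.2 hπA)
    (fun y hy => by
      rw [Finset.mem_erase, Set.Finite.mem_toFinset] at hy
      obtain ⟨hne, s, hs, rfl⟩ := hy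
      rw [hPev s hs, h0 s hs hne]) hπA
  refine ⟨Q, hQ, ?_⟩
  rw [← hQev]
  have h2 := hPev 1 (one_mem _)
  rw [AlgEquiv.one_apply] at h2
  exact h2.symm

end Fermat.Agent.S15.FL
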