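/-
S15 / block FL-1, node FL-15b: the orbit has `r` elements.   Owner: helper206.
-/
import Fermat.Agent.S15.FL.Defs

set_option autoImplicit false

namespace Fermat.Agent.S15.FL

open Fermat.Agent.Lib.InertiaField Polynomial

variable {A : ValuationSubring Qb}

/-- `s x ↦ c s` is a bijection `orb x → ZMod r` -/
theorem ncard_orb_gen {r : ℕ} (hr : r.Prime) (c : GQ → ZMod r)
    (hc : ∀ s ∈ Ine A, ∀ t ∈ Ine A, c (s * t) = c s + c t)
    {s0 : GQ} (hs0 : s0 ∈ Ine A) (h0 : c s0 ≠ 0) {x : Qb}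
    (hx : ∀ s ∈ Ine A, s x = x ↔ c s = 0) : (orb A x).ncard = r := by
  have : Fact r.Prime := ⟨hr⟩
  have h1 : c 1 = 0 := by
    have h := hc 1 (one_mem _) 1 (one_mem _)
    rw [mul_one] at h
    exact add_eq_left.1 h.symm
  have hinv : ∀ s ∈ Ine A, c s⁻¹ = - c s := by
    intro s hs
    have h := hc s hs s⁻¹ (inv_mem hs)
    rw [mul_inv_cancel, h1] at h
    exact (neg_eq_of_add_eq_zero_right h.symm).symm
  have hpow : ∀ n : ℕ, c (s0 ^ n) = n • c s0 := by
    intro n
    induction n with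
    | zero => simpa using h1
    | succ n ih => rw [pow_succ, hc _ (pow_mem hs0 n) _ hs0, ih, succ_nsmul]
  have key : ∀ s ∈ Ine A, ∀ t ∈ Ine A, s x = t x ↔ c s = c t := by
    intro s hs t ht
    have h2 := hx (t⁻¹ * s) (mul_mem (inv_mem ht) hs)
    rw [hc _ (inv_mem ht) _ hs, hinv t ht, AlgEquiv.mul_apply] at h2
    constructor
    · intro h
      have h3 : t⁻¹ (s x) = x := by
        rw [h]
        exact t.symm_apply_apply x
      exact (neg_add_eq_zero.1 (h2.1 h3)).symm
    · intro h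
      have h3 : t⁻¹ (s x) = x := h2.2 (by rw [h]; exact neg_add_cancel _)
      have h4 := congrArg t h3
      rwa [show t (t⁻¹ (s x)) = s x from t.apply_symm_apply _] at h4
  let g : ZMod r → Qb := fun k => (s0 ^ (k * (c s0)⁻¹).val) x
  have hcg : ∀ k : ZMod r, c (s0 ^ (k * (c s0)⁻¹).val) = k := by
    intro k
    rw [hpow, nsmul_eq_mul, ZMod.natCast_zmod_val, mul_assoc, inv_mul_cancel₀ h0, mul_one]
  have hinj : Function.Injective g := by
    intro k k' h
    have h3 := (key _ (pow_mem hs0 _) _ (pow_mem hs0 _)).1 h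
    rwa [hcg, hcg] at h3
  have hrange : orb A x = Set.range g := by
    ext y
    constructor
    · rintro ⟨s, hs, rfl⟩
      exact ⟨c s, ((key _ hs _ (pow_mem hs0 _)).2 (hcg _).symm).symm⟩
    · rintro ⟨k, rfl⟩
      exact ⟨_, pow_mem hs0 _, rfl⟩
  rw [hrange, ← Set.image_univ, Set.ncard_image_of_injective _ hinj, Set.ncard_univ, Nat.card_zmod]

end Fermat.Agent.S15.FL
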