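/-
S15 / block FL-1 (architect helper173), node FL-15a (proof helper202).
A generator of the fixed field of `ker c`.
-/
import Fermat.Agent.S15.FL.Defs
import Fermat.Agent.S15.FL.Orbit
import Fermat.Agent.S15.FL.Red
import Fermat.Agent.S15.FL.Indep

set_option autoImplicit false

namespace Fermat.Agent.S15.FL

open Fermat.Agent.Lib.InertiaField Polynomial

variable {A : ValuationSubring Qb}

/-- one of the `c_k` of an independent representation generates the fixed field of `ker c`.
`exists_indep` for `F = r 1_{c = 0}`; `F (σ h) = F σ` for `c h = 0`, so `h (c_k) = c_k`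
(`apply_eq_of_indep`); not all `c_k` are fixed by `s0` (else `0 = F s0 = F 1 = r`); `x` := such a
`c_k`.  If `s x = x` and `c s ≠ 0` then `c s0 = j • c s`, `s0 = (s0 s^(-j)) s^j` fixes `x`. -/
theorem exists_gen {r : ℕ} (hr : r.Prime) (c : GQ → ZMod r)
    (hc : ∀ s ∈ Ine A, ∀ t ∈ Ine A, c (s * t) = c s + c t)
    (hF : S19.IsSI A (fun s => if c s = 0 then (r : Qb) else 0))
    {s0 : GQ} (hs0 : s0 ∈ Ine A) (h0 : c s0 ≠ 0) :
    ∃ x : Qb, ∀ s ∈ Ine A, s x = x ↔ c s = 0 := by
  haveI : Fact r.Prime := ⟨hr⟩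
  obtain ⟨m, a, cc, -, -, hrep, hind⟩ := exists_indep hF
  have hc1 : c 1 = 0 := by
    have h := hc 1 (Ine A).one_mem 1 (Ine A).one_mem
    rw [mul_one] at h
    exact left_eq_add.1 h
  -- elements of the kernel fix all the `cc k`
  have hker : ∀ h ∈ Ine A, c h = 0 → ∀ k, h (cc k) = cc k := by
    intro h hh hch
    refine apply_eq_of_indep hind cc (fun σ hσ => ?_)
    rw [← hrep σ hσ, ← hrep (σ * h) ((Ine A).mul_mem hσ hh), hc σ hσ h hh, hch, add_zero]
  -- `s0` moves one of them
  have hmove : ∃ k, s0 (cc k) ≠ cc k := by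
    by_contra hcon
    push Not at hcon
    have e0 := hrep s0 hs0
    have e1 := hrep 1 (Ine A).one_mem
    simp only [if_neg h0, hc1, if_true, AlgEquiv.one_apply] at e0 e1
    rw [Finset.sum_congr rfl (fun k _ => by rw [hcon k]), ← e1] at e0
    exact hr.ne_zero (by exact_mod_cast e0.symm)
  obtain ⟨k, hk⟩ := hmove
  refine ⟨cc k, fun s hs => ⟨fun hsx => ?_, fun hcs => hker s hs hcs k⟩⟩
  by_contra hcs
  apply hk
  set j : ℕ := (c s0 / c s).val with hj
  have hpow : ∀ n : ℕ, c (s ^ n) = (n : ZMod r) * c s := by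
    intro n
    induction n with
    | zero => simp [hc1]
    | succ n ih =>
      rw [pow_succ, hc _ ((Ine A).pow_mem hs n) s hs, ih]
      push_cast
      ring
  have hfix : ∀ n : ℕ, (s ^ n) (cc k) = cc k := by
    intro n
    induction n with
    | zero => simp
    | succ n ih => rw [pow_succ, AlgEquiv.mul_apply, hsx, ih]
  have hsj : s ^ j ∈ Ine A := (Ine A).pow_mem hs j
  have hcj : c (s ^ j) = c s0 := by
    rw [hpow, hj, ZMod.natCast_val, ZMod.cast_id', id_eq, div_mul_cancel₀ _ hcs]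
  set h := s0 * (s ^ j)⁻¹ with hh
  have hhI : h ∈ Ine A := (Ine A).mul_mem hs0 ((Ine A).inv_mem hsj)
  have hs0' : s0 = h * s ^ j := by rw [hh, inv_mul_cancel_right]
  have hch : c h = 0 := by
    have e := hc h hhI (s ^ j) hsj
    rw [← hs0', hcj] at e
    exact right_eq_add.1 e
  rw [hs0', AlgEquiv.mul_apply, hfix, hker h hhI hch k]

end Fermat.Agent.S15.FL
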