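/-
S15 / block FL-1 (architect helper173).  Node FL-15c (proof: helper187): the wild estimate
`π - s π ∈ π² A`.
-/
import Fermat.Agent.S15.FL.Defs
import Fermat.Agent.S15.FL.Orbit
import Fermat.Agent.S15.FL.UnifA
import Fermat.Agent.S15.FL.UnifB

set_option autoImplicit false

namespace Fermat.Agent.S15.FL

open Fermat.Agent.Lib.InertiaField Polynomial

variable {A : ValuationSubring Qb}

theorem wild_residue_eq_zero_iff (A : ValuationSubring Qb) {x : Qb} (hx : x ∈ A) :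
    IsLocalRing.residue A ⟨x, hx⟩ = 0 ↔ x ∈ A.nonunits := by
  rw [IsLocalRing.residue_eq_zero_iff, ValuationSubring.mem_nonunits_iff_exists_mem_maximalIdeal]
  exact ⟨fun h => ⟨hx, h⟩, fun ⟨_, h⟩ => h⟩

theorem wild_c_one {r : ℕ} (c : GQ → ZMod r)
    (hc : ∀ s ∈ Ine A, ∀ t ∈ Ine A, c (s * t) = c s + c t) : c 1 = 0 := by
  have h := hc 1 (one_mem _) 1 (one_mem _)
  rw [mul_one] at h
  exact left_eq_add.mp h

theorem wild_c_pow {r : ℕ} (c : GQ → ZMod r)
    (hc : ∀ s ∈ Ine A, ∀ t ∈ Ine A, c (s * t) = c s + c t) {s : GQ} (hs : s ∈ Ine A) (n : ℕ) :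
    c (s ^ n) = n • c s := by
  induction n with
  | zero => rw [pow_zero, zero_smul]; exact wild_c_one c hc
  | succ n ih => rw [pow_succ, hc _ (pow_mem hs n) _ hs, ih, succ_nsmul]

theorem wild_c_inv {r : ℕ} (c : GQ → ZMod r)
    (hc : ∀ s ∈ Ine A, ∀ t ∈ Ine A, c (s * t) = c s + c t) {s : GQ} (hs : s ∈ Ine A) :
    c s⁻¹ + c s = 0 := by
  rw [← hc _ (inv_mem hs) _ hs, inv_mul_cancel]
  exact wild_c_one c hc

/-- telescoping product -/
theorem wild_prod (s : GQ) {π : Qb} (hπ0 : π ≠ 0) (n : ℕ) :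
    ∏ i ∈ Finset.range n, (s ^ i) (s π / π) = (s ^ n) π / π := by
  induction n with
  | zero =>
    rw [Finset.prod_range_zero, pow_zero, AlgEquiv.one_apply, div_self hπ0]
  | succ n ih =>
    have h0 : (s ^ n) π ≠ 0 := (_root_.map_ne_zero _).mpr hπ0
    rw [Finset.prod_range_succ, ih, map_div₀, pow_succ s n, AlgEquiv.mul_apply]
    field_simp

/-- if `∏_{i<r} s^i w = 1` then `w ≡ 1` modulo the maximal ideal. -/
theorem wild_sub_one_mem {r : ℕ} (hr : r.Prime) (hA : A.LiesOverPrime r) {s : GQ}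
    (hs : s ∈ Ine A) {w : Qb} (hw : w ∈ A) (hprod : ∏ i ∈ Finset.range r, (s ^ i) w = 1) :
    w - 1 ∈ A.nonunits := by
  have : Fact r.Prime := ⟨hr⟩
  have := charP_residueField A r hr hA
  have hmem : ∀ i : ℕ, (s ^ i) w ∈ A := fun i =>
    mem_of_mem_orb A (⟨s ^ i, pow_mem hs i, rfl⟩ : (s ^ i) w ∈ orb A w) hw
  let f : ℕ → A := fun i => ⟨(s ^ i) w, hmem i⟩
  have hf : ∀ i, IsLocalRing.residue A (f i) = IsLocalRing.residue A ⟨w, hw⟩ := by
    intro i
    rw [← sub_eq_zero, ← map_sub]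
    exact (wild_residue_eq_zero_iff A (x := (s ^ i) w - w) (A.sub_mem (hmem i) hw)).mpr
      (apply_sub_mem_nonunits A (pow_mem hs i) hw)
  have hone : ∏ i ∈ Finset.range r, f i = 1 := by
    apply Subtype.ext
    have h1 := map_prod A.subtype f (Finset.range r)
    exact h1.trans hprod
  have h2 : IsLocalRing.residue A ⟨w, hw⟩ ^ r = 1 := by
    have h3 := congrArg (IsLocalRing.residue A) hone
    rw [map_prod, map_one, Finset.prod_congr rfl (fun i _ => hf i), Finset.prod_const,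
      Finset.card_range] at h3
    exact h3
  have h4 : (IsLocalRing.residue A ⟨w, hw⟩ - 1) ^ r = 0 := by
    rw [sub_pow_char, h2, one_pow, sub_self]
  have h5 : IsLocalRing.residue A ⟨w, hw⟩ - 1 = 0 := pow_eq_zero_iff hr.ne_zero |>.mp h4
  rw [← map_one (IsLocalRing.residue A), ← map_sub] at h5
  exact (wild_residue_eq_zero_iff A (x := w - 1) (A.sub_mem hw A.one_mem)).mp h5

/-- the wild estimate.  `y = s π`, `w = s π / π` is a unit; `∏_{i<r} s^i w = s^r π / π = 1`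
(`c (s^r) = 0`), `s^i w - w ∈ 𝔪` (`apply_sub_mem_nonunits`), so `w^r - 1 ∈ 𝔪`; the residue field has
characteristic `r` (`charP_residueField`), so `(w - 1)^r ∈ 𝔪`, `w - 1 ∈ 𝔪`.  `w - 1` is fixed by the
stabiliser of `π` (which is normal: it is the kernel of `c`), so `(w - 1)/π ∈ A` (`IsUnif.div_mem`). -/
theorem wild {r : ℕ} (hr : r.Prime) (hA : A.LiesOverPrime r) (c : GQ → ZMod r)
    (hc : ∀ s ∈ Ine A, ∀ t ∈ Ine A, c (s * t) = c s + c t) {π : Qb} (hπ : IsUnif A r π r)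
    (hx : ∀ s ∈ Ine A, s π = π ↔ c s = 0) {y : Qb} (hy : y ∈ orb A π) :
    (π - y) / π ^ 2 ∈ A := by
  obtain ⟨s, hs, rfl⟩ := hy
  have hπ0 : π ≠ 0 := hπ.ne_zero hr
  have hw : s π / π ∈ A := by
    rw [← ValuationSubring.valuation_le_one_iff, map_div₀, valuation_apply A hs,
      div_self ((_root_.map_ne_zero _).mpr hπ0)]
  have hsr : (s ^ r) π = π := by
    rw [hx _ (pow_mem hs r), wild_c_pow c hc hs, nsmul_eq_mul, ZMod.natCast_self, zero_mul]
  have hprod : ∏ i ∈ Finset.range r, (s ^ i) (s π / π) = 1 := by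
    rw [wild_prod s hπ0, hsr, div_self hπ0]
  have h1 := wild_sub_one_mem hr hA hs hw hprod
  have hfix : FixBy A π (s π) := by
    intro t ht htπ
    have h2 : c (s⁻¹ * t * s) = 0 := by
      rw [hc _ (mul_mem (inv_mem hs) ht) _ hs, hc _ (inv_mem hs) _ ht, (hx t ht).mp htπ, add_zero]
      exact wild_c_inv c hc hs
    have h3 := (hx _ (mul_mem (mul_mem (inv_mem hs) ht) hs)).mpr h2
    rw [AlgEquiv.mul_apply, AlgEquiv.mul_apply] at h3
    have h4 := congrArg s h3
    rwa [← AlgEquiv.mul_apply, mul_inv_cancel, AlgEquiv.one_apply] at h4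
  have hfix' : FixBy A π (s π / π - 1) :=
    (hfix.div (FixBy.refl A π)).sub (FixBy.of_mem_K0 A π (one_mem _))
  have h5 := hπ.div_mem hr hA hfix' h1
  have h6 : (π - s π) / π ^ 2 = -((s π / π - 1) / π) := by
    field_simp
    ring
  rw [h6]
  exact A.neg_mem _ h5

end Fermat.Agent.S15.FL
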