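/-
S15 / block FL-1 (architect helper173).  Node FL-11a: `ϖ`-adic expansions modulo `q ^ M`.
-/
import Fermat.Agent.S15.FL.Defs
import Fermat.Agent.S15.FL.Orbit

set_option autoImplicit false

namespace Fermat.Agent.S15.FL

open Fermat.Agent.Lib.InertiaField Polynomial

variable {A : ValuationSubring Qb} {q : ℕ}

/-- `k` steps of the `ϖ`-adic expansion. -/
theorem approx_aux_steps (hq : q.Prime) (hA : A.LiesOverPrime q) {x ϖ : Qb} (hϖ0 : ϖ ≠ 0)
    (hϖ : FixBy A x ϖ)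
    (hdiv : ∀ c, FixBy A x c → c ∈ A.nonunits → c / ϖ ∈ A) (k : ℕ) {c : Qb} (hc : FixBy A x c)
    (hcA : c ∈ A) :
    ∃ (B : ℕ → Qb) (c' : Qb), (∀ j, B j ∈ K0 A ∧ B j ∈ A) ∧ c' ∈ A ∧ FixBy A x c' ∧
      c = ∑ j ∈ Finset.range k, B j * ϖ ^ j + ϖ ^ k * c' := by
  induction k with
  | zero =>
    exact ⟨fun _ => 0, c, fun _ => ⟨zero_mem _, zero_mem _⟩, hcA, hc, by simp⟩
  | succ k ih =>
    obtain ⟨B, c', hB, hc'A, hc', hsum⟩ := ih
    obtain ⟨b, hbK, hbA, hb⟩ := exists_mem_K0_sub_mem A q hq hA hc'A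
    have hfix : FixBy A x (c' - b) := hc'.sub (FixBy.of_mem_K0 A x hbK)
    refine ⟨Function.update B k b, (c' - b) / ϖ, ?_, hdiv _ hfix hb, hfix.div hϖ, ?_⟩
    · intro j
      by_cases hj : j = k
      · subst hj
        rw [Function.update_self]
        exact ⟨hbK, hbA⟩
      · rw [Function.update_of_ne hj]
        exact hB j
    · rw [Finset.sum_range_succ, Function.update_self]
      have h1 : ∑ j ∈ Finset.range k, Function.update B k b j * ϖ ^ j =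
          ∑ j ∈ Finset.range k, B j * ϖ ^ j := by
        apply Finset.sum_congr rfl
        intro j hj
        rw [Function.update_of_ne (Finset.mem_range.1 hj).ne]
      rw [h1, hsum, pow_succ, mul_assoc, mul_div_cancel₀ _ hϖ0]
      ring

/-- `ϖ`-adic expansions.  One step: `c - b ∈ 𝔪` with `b ∈ K0 ∩ A` (`exists_mem_K0_sub_mem`),
`(c - b)/ϖ ∈ A`; `e` steps give `c = ∑_{j<e} b_j ϖ^j + q (u c_e)`; induction on `M`. -/
theorem exists_approx (hq : q.Prime) (hA : A.LiesOverPrime q) {x ϖ u : Qb} {e : ℕ} (he : 0 < e)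
    (hϖ : FixBy A x ϖ) (hu : IsUn A u) (hpow : ϖ ^ e = (q : Qb) * u)
    (hdiv : ∀ c, FixBy A x c → c ∈ A.nonunits → c / ϖ ∈ A) {c : Qb} (hc : FixBy A x c)
    (hcA : c ∈ A) (M : ℕ) :
    ∃ (B : ℕ → Qb) (c' : Qb), (∀ j, B j ∈ K0 A ∧ B j ∈ A) ∧ c' ∈ A ∧ FixBy A x c' ∧
      c = ∑ j ∈ Finset.range e, B j * ϖ ^ j + (q : Qb) ^ M * c' := by
  have hq0 : (q : Qb) ≠ 0 := Nat.cast_ne_zero.2 hq.ne_zero
  have hu0 : u ≠ 0 := IsUn.ne_zero A hu
  have hϖ0 : ϖ ≠ 0 := by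
    intro h0
    rw [h0, zero_pow he.ne'] at hpow
    exact mul_ne_zero hq0 hu0 hpow.symm
  have hufix : FixBy A x u := by
    have h1 : u = ϖ ^ e / (q : Qb) := by rw [hpow, mul_div_cancel_left₀ _ hq0]
    rw [h1]
    exact (hϖ.pow e).div (FixBy.natCast A x q)
  induction M with
  | zero =>
    exact ⟨fun _ => 0, c, fun _ => ⟨zero_mem _, zero_mem _⟩, hcA, hc, by simp⟩
  | succ M ih =>
    obtain ⟨B, c', hB, hc'A, hc', hsum⟩ := ih
    obtain ⟨B', c'', hB', hc''A, hc'', hsum'⟩ := approx_aux_steps hq hA hϖ0 hϖ hdiv e hc' hc'A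
    refine ⟨fun j => B j + (q : Qb) ^ M * B' j, u * c'', ?_, mul_mem (IsUn.mem A hu) hc''A,
      hufix.mul hc'', ?_⟩
    · intro j
      exact ⟨add_mem (hB j).1 (mul_mem (pow_mem (natCast_mem _ q) M) (hB' j).1),
        add_mem (hB j).2 (mul_mem (pow_mem (natCast_mem _ q) M) (hB' j).2)⟩
    · have h1 : ∑ j ∈ Finset.range e, (B j + (q : Qb) ^ M * B' j) * ϖ ^ j =
          ∑ j ∈ Finset.range e, B j * ϖ ^ j +
            (q : Qb) ^ M * ∑ j ∈ Finset.range e, B' j * ϖ ^ j := by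
        rw [Finset.mul_sum, ← Finset.sum_add_distrib]
        apply Finset.sum_congr rfl
        intro j _
        ring
      rw [h1]
      conv_lhs => rw [hsum, hsum', hpow]
      ring

end Fermat.Agent.S15.FL
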