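/-
S15 / block FL-1 (architect helper173).  Node FL-11b: `K0(x) = K0(ϖ)` for a uniformiser `ϖ`.
-/
import Fermat.Agent.S15.FL.Defs
import Fermat.Agent.S15.FL.Orbit
import Fermat.Agent.S15.FL.Approx

set_option autoImplicit false

namespace Fermat.Agent.S15.FL

open Fermat.Agent.Lib.InertiaField Polynomial

variable {A : ValuationSubring Qb} {q : ℕ}

/-- the integral case -/
theorem fixBy_prim_of_mem (hq : q.Prime) (hA : A.LiesOverPrime q) {x ϖ u : Qb} {e : ℕ}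
    (he : 0 < e) (hϖ : FixBy A x ϖ) (hu : IsUn A u) (hpow : ϖ ^ e = (q : Qb) * u)
    (hdiv : ∀ c, FixBy A x c → c ∈ A.nonunits → c / ϖ ∈ A) {c : Qb} (hc : FixBy A x c)
    (hcA : c ∈ A) : FixBy A ϖ c := by
  intro s hs hsϖ
  by_contra hne
  have hd : s c - c ≠ 0 := sub_ne_zero.mpr hne
  obtain ⟨k, hk⟩ := exists_div_pow_not_mem A q hq hA hd
  obtain ⟨B, c', hB, hc'A, -, hcB⟩ := exists_approx hq hA he hϖ hu hpow hdiv hc hcA k
  apply hk
  have hq0 : (q : Qb) ^ k ≠ 0 := pow_ne_zero _ (by exact_mod_cast hq.ne_zero)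
  have hsB : ∀ j, s (B j) = B j := fun j => (mem_K0_iff A (B j)).mp (hB j).1 s hs
  have h1 : s c = ∑ j ∈ Finset.range e, B j * ϖ ^ j + (q : Qb) ^ k * s c' := by
    conv_lhs => rw [hcB]
    rw [map_add, map_sum, map_mul, map_pow, map_natCast]
    congr 1
    refine Finset.sum_congr rfl fun j _ => ?_
    rw [map_mul, map_pow, hsB, hsϖ]
  have h2 : (s c - c) / (q : Qb) ^ k = s c' - c' := by
    rw [div_eq_iff hq0]
    conv_lhs => rw [h1, hcB]
    ring
  rw [h2]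
  exact A.nonunits_subset (apply_sub_mem_nonunits A hs hc'A)

/-- `s ϖ = ϖ ⇒ s c - c = q^M (s c' - c') ∈ q^M A` for all `M` `⇒ s c = c`
(`exists_div_pow_not_mem`); if `c ∉ A` use `c⁻¹`. -/
theorem fixBy_prim (hq : q.Prime) (hA : A.LiesOverPrime q) {x ϖ u : Qb} {e : ℕ} (he : 0 < e)
    (hϖ : FixBy A x ϖ) (hu : IsUn A u) (hpow : ϖ ^ e = (q : Qb) * u)
    (hdiv : ∀ c, FixBy A x c → c ∈ A.nonunits → c / ϖ ∈ A) {c : Qb} (hc : FixBy A x c) :
    FixBy A ϖ c := by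
  rcases A.mem_or_inv_mem c with hcA | hcA
  · exact fixBy_prim_of_mem hq hA he hϖ hu hpow hdiv hc hcA
  · intro s hs hsϖ
    have h := fixBy_prim_of_mem hq hA he hϖ hu hpow hdiv hc.inv hcA s hs hsϖ
    rw [map_inv₀] at h
    exact inv_injective h

end Fermat.Agent.S15.FL
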