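/-
S15 / block FL-1 (architect helper173).  Node FL-10a: the norm from `K0(x)` to `K0`.
(task 2619, helper252)
-/
import Fermat.Agent.S15.FL.Defs
import Fermat.Agent.S15.FL.Orbit

set_option autoImplicit false

namespace Fermat.Agent.S15.FL

open Fermat.Agent.Lib.InertiaField Polynomial

variable {A : ValuationSubring Qb}

/-- the norm to `K0`: `s_y x = y` for `y ∈ orb x`; `z = ∏_{y ∈ orb x} s_y c` is fixed by inertia
(`t s_y c = s_(t y) c` because `c` is fixed by the stabiliser of `x`) and `v z = (v c)^N`. -/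
theorem exists_norm {x c : Qb} (hc : FixBy A x c) :
    ∃ z ∈ K0 A, A.valuation z = A.valuation c ^ (orb A x).ncard := by
  classical
  have hfin := orb_finite A x
  -- the function `s x ↦ s c` on the orbit
  let F : Qb → Qb := fun y => if h : y ∈ orb A x then h.choose c else 1
  have hF : ∀ s ∈ Ine A, F (s x) = s c := by
    intro s hs
    have h : s x ∈ orb A x := ⟨s, hs, rfl⟩
    have e : F (s x) = h.choose c := dif_pos h
    obtain ⟨h1, h2⟩ := h.choose_spec
    rw [e]
    have h3 : (s⁻¹ * h.choose) c = c := by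
      refine hc _ ((Ine A).mul_mem ((Ine A).inv_mem hs) h1) ?_
      rw [AlgEquiv.mul_apply, h2]
      exact s.symm_apply_apply x
    rw [AlgEquiv.mul_apply] at h3
    have h4 := congrArg s h3
    rwa [show s (s⁻¹ (h.choose c)) = h.choose c from s.apply_symm_apply _] at h4
  refine ⟨∏ y ∈ hfin.toFinset, F y, ?_, ?_⟩
  · rw [mem_K0_iff]
    intro t ht
    rw [map_prod]
    refine Finset.prod_nbij (fun y => t y) ?_ ?_ ?_ ?_
    · intro y hy
      rw [Set.Finite.mem_toFinset] at hy ⊢
      exact apply_mem_orb A hy ht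
    · intro y _ y' _ h
      exact t.injective h
    · intro y hy
      rw [Set.Finite.coe_toFinset] at hy
      refine ⟨t⁻¹ y, ?_, t.apply_symm_apply y⟩
      rw [Set.Finite.coe_toFinset]
      exact apply_mem_orb A hy ((Ine A).inv_mem ht)
    · intro y hy
      rw [Set.Finite.mem_toFinset] at hy
      obtain ⟨s, hs, rfl⟩ := hy
      rw [hF s hs, ← AlgEquiv.mul_apply, ← AlgEquiv.mul_apply, hF _ ((Ine A).mul_mem ht hs)]
  · rw [map_prod, Set.ncard_eq_toFinset_card _ hfin]
    refine Finset.prod_eq_pow_card fun y hy => ?_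
    rw [Set.Finite.mem_toFinset] at hy
    obtain ⟨s, hs, rfl⟩ := hy
    rw [hF s hs, valuation_apply A hs]

end Fermat.Agent.S15.FL
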