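/-
S15 / block FL-1 (architect helper173), node FL-10b: a uniformiser of `K0(x)` (an element whose
norm has minimal positive order).
-/
import Fermat.Agent.S15.FL.Defs
import Fermat.Agent.S15.FL.Orbit
import Fermat.Agent.S15.FL.Norm

set_option autoImplicit false

namespace Fermat.Agent.S15.FL

open Fermat.Agent.Lib.InertiaField Polynomial

variable {A : ValuationSubring Qb} {q : ℕ}

/-- the order of the norm of an element of `K0(x)` -/
theorem Prim.exists_ord (hq : q.Prime) (hA : A.LiesOverPrime q) {x c : Qb} (hc : FixBy A x c)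
    (hc0 : c ≠ 0) :
    ∃ k : ℤ, A.valuation c ^ (orb A x).ncard = A.valuation (q : Qb) ^ k := by
  obtain ⟨z, hz, hvz⟩ := exists_norm hc
  have hz0 : z ≠ 0 := by
    intro h
    rw [h, map_zero] at hvz
    exact pow_ne_zero _ ((_root_.map_ne_zero _).2 hc0) hvz.symm
  obtain ⟨k, u, -, hu, hu', hzu⟩ := exists_zpow_mul_unit A q hq hA hz hz0
  have hu0 : u ≠ 0 := by
    rintro rfl
    rw [mul_zero] at hzu
    exact hz0 hzu
  have hu1 : A.valuation u = 1 := (isUn_iff A).2 ⟨hu0, hu, hu'⟩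
  exact ⟨k, by rw [← hvz, hzu, map_mul, map_zpow₀, hu1, mul_one]⟩

/-- the uniformiser of `K0(x)`.  `N = card (orb x)`.  For `c ≠ 0` in `K0(x)`: `(v c)^N = (v q)^k`,
`k ∈ ℤ` (`exists_norm`, `exists_zpow_mul_unit`).  Let `d > 0` be minimal among the `k > 0`
(`k = N` occurs, for `c = q`), attained at `ϖ`.  Then `c ∈ K0(x) ∩ 𝔪 ⇒ k(c) ≥ d ⇒ v(c/ϖ)^N ≤ 1`;
`N = d e` (division with remainder, applied to `q / ϖ^e`), and `v(ϖ^e / q)^N = 1`. -/
theorem exists_prim (hq : q.Prime) (hA : A.LiesOverPrime q) (x : Qb) :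
    ∃ (ϖ u : Qb) (e : ℕ), 0 < e ∧ FixBy A x ϖ ∧ IsUn A u ∧ ϖ ^ e = (q : Qb) * u ∧
      ∀ c, FixBy A x c → c ∈ A.nonunits → c / ϖ ∈ A := by
  classical
  set N := (orb A x).ncard with hN
  have hNpos : 0 < N := ncard_orb_pos A x
  set γ := A.valuation (q : Qb) with hγ
  have hq0 : (q : Qb) ≠ 0 := by exact_mod_cast hq.ne_zero
  have hγ1 : γ < 1 := (A.mem_nonunits_iff).mp hA
  have hγ0 : γ ≠ 0 := (_root_.map_ne_zero _).2 hq0
  have hγpos : 0 < γ := zero_lt_iff.2 hγ0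
  have hP : ∃ k : ℕ, 0 < k ∧ ∃ c, FixBy A x c ∧ c ≠ 0 ∧ A.valuation c ^ N = γ ^ k :=
    ⟨N, hNpos, q, FixBy.natCast A x q, hq0, rfl⟩
  obtain ⟨hdpos, ϖ, hϖfix, hϖ0, hϖv⟩ := Nat.find_spec hP
  have hmin : ∀ k : ℕ, (0 < k ∧ ∃ c, FixBy A x c ∧ c ≠ 0 ∧ A.valuation c ^ N = γ ^ k) →
      Nat.find hP ≤ k := fun k hk => Nat.find_min' hP hk
  set d := Nat.find hP with hd
  set e := N / d with he
  have hdiv : d * e + N % d = N := Nat.div_add_mod N d
  have hpow : (A.valuation ϖ ^ e) ^ N = γ ^ (d * e) := by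
    rw [← pow_mul, mul_comm e N, pow_mul, hϖv, ← pow_mul]
  have hγde : γ ^ (d * e) ≠ 0 := pow_ne_zero _ hγ0
  -- `d ∣ N`
  have hmod : N % d = 0 := by
    by_contra hne
    have h1 : A.valuation ((q : Qb) / ϖ ^ e) ^ N = γ ^ (N % d) := by
      rw [map_div₀, map_pow, div_pow, hpow]
      conv_lhs => rw [← hdiv, pow_add]
      rw [mul_div_cancel_left₀ _ hγde]
    have h2 := hmin (N % d) ⟨Nat.pos_of_ne_zero hne, _,
      (FixBy.natCast A x q).div (hϖfix.pow e), div_ne_zero hq0 (pow_ne_zero _ hϖ0), h1⟩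
    exact absurd (Nat.mod_lt N hdpos) (not_lt.2 h2)
  rw [hmod, add_zero] at hdiv
  have hepos : 0 < e := by
    rcases Nat.eq_zero_or_pos e with h0 | h0
    · rw [h0, mul_zero] at hdiv
      omega
    · exact h0
  have hu : IsUn A (ϖ ^ e / (q : Qb)) := by
    have h1 : A.valuation (ϖ ^ e / (q : Qb)) ^ N = 1 := by
      rw [map_div₀, map_pow, div_pow, hpow, hdiv]
      exact div_self (pow_ne_zero _ hγ0)
    exact (pow_eq_one_iff.1 h1).resolve_right hNpos.ne'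
  refine ⟨ϖ, ϖ ^ e / (q : Qb), e, hepos, hϖfix, hu, (mul_div_cancel₀ _ hq0).symm, ?_⟩
  intro c hc hcm
  rcases eq_or_ne c 0 with rfl | hc0
  · rw [zero_div]
    exact A.zero_mem
  obtain ⟨k, hk⟩ := Prim.exists_ord hq hA hc hc0
  have hkpos : 0 < k := by
    rw [← zpow_lt_one_iff_right_of_lt_one₀ hγpos hγ1, ← hk]
    exact (pow_lt_one_iff hNpos.ne').2 ((A.mem_nonunits_iff).mp hcm)
  obtain ⟨k', rfl⟩ := Int.eq_ofNat_of_zero_le hkpos.le
  rw [zpow_natCast] at hk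
  have hdk : d ≤ k' := hmin k' ⟨by exact_mod_cast hkpos, c, hc, hc0, hk⟩
  rw [← A.valuation_le_one_iff, ← pow_le_one_iff hNpos.ne', map_div₀, div_pow, hk, hϖv]
  obtain ⟨j, rfl⟩ := Nat.exists_eq_add_of_le hdk
  rw [pow_add, mul_div_cancel_left₀ _ (pow_ne_zero _ hγ0)]
  exact pow_le_one' hγ1.le j

end Fermat.Agent.S15.FL
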