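/-
S15 / block FL-1 (architect helper173), node FL-12 (prover helper94): Krasner's lemma, roots close to
a point where a monic polynomial is small, and a uniform bound for the `q`-divisibility of finitely
many nonzero elements.
-/
import Fermat.Agent.S15.FL.Defs
import Fermat.Agent.S15.FL.Orbit

set_option autoImplicit false

namespace Fermat.Agent.S15.FL

open Fermat.Agent.Lib.InertiaField Polynomial

variable {A : ValuationSubring Qb} {q : ℕ}

/-- Krasner's lemma: `ϖ - s ϖ = (ϖ - ρ) - s (ϖ - ρ)` if `s ρ = ρ` -/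
theorem krasner {ϖ ρ : Qb}
    (h : ∀ y ∈ orb A ϖ, y ≠ ϖ → A.valuation (ϖ - ρ) < A.valuation (ϖ - y)) : FixBy A ρ ϖ := by
  intro s hs hρ
  by_contra hne
  have h1 := h (s ϖ) ⟨s, hs, rfl⟩ hne
  have h2 : ϖ - s ϖ = (ϖ - ρ) - s (ϖ - ρ) := by
    rw [map_sub, hρ]
    ring
  have h3 : A.valuation (ϖ - s ϖ) ≤ A.valuation (ϖ - ρ) := by
    rw [h2]
    refine (Valuation.map_sub _ _ _).trans ?_
    rw [valuation_apply A hs, max_self]
  exact absurd h1 (not_lt.mpr h3)

theorem krasner_pow_le_prod (ϖ : Qb) (c : A.ValueGroup) (s : Multiset Qb)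
    (h : ∀ a ∈ s, c ≤ A.valuation (ϖ - a)) :
    c ^ Multiset.card s ≤ A.valuation ((s.map (fun a => ϖ - a)).prod) := by
  induction s using Multiset.induction_on with
  | empty => simp
  | cons a s ih =>
    rw [Multiset.map_cons, Multiset.prod_cons, map_mul, Multiset.card_cons, pow_succ']
    exact mul_le_mul' (h a (Multiset.mem_cons_self a s))
      (ih (fun b hb => h b (Multiset.mem_cons_of_mem hb)))

/-- a monic polynomial which is small at `ϖ` has a root close to `ϖ` (`h` splits over `ℚ̄`) -/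
theorem exists_root_close {h : Qb[X]} (hm : h.Monic) (hd : 0 < h.natDegree) (ϖ : Qb) :
    ∃ ρ, h.eval ρ = 0 ∧ A.valuation (ϖ - ρ) ^ h.natDegree ≤ A.valuation (h.eval ϖ) := by
  classical
  have hsplit : h.Splits := IsAlgClosed.splits h
  have hprod : h = (h.roots.map (fun a => X - C a)).prod := hsplit.eq_prod_roots_of_monic hm
  have heval : h.eval ϖ = (h.roots.map (fun a => ϖ - a)).prod := by
    conv_lhs => rw [hprod]
    rw [Polynomial.eval_multiset_prod, Multiset.map_map]
    simp
  have hcard : Multiset.card h.roots = h.natDegree := hsplit.natDegree_eq_card_roots.symm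
  have hne : h.roots.toFinset.Nonempty := by
    rw [Multiset.toFinset_nonempty]
    intro h0
    rw [h0, Multiset.card_zero] at hcard
    omega
  obtain ⟨ρ, hρ, hmin⟩ := Finset.exists_min_image h.roots.toFinset
    (fun a => A.valuation (ϖ - a)) hne
  refine ⟨ρ, (Polynomial.mem_roots'.1 (Multiset.mem_toFinset.mp hρ)).2, ?_⟩
  rw [heval, ← hcard]
  exact krasner_pow_le_prod ϖ _ h.roots fun a ha => hmin a (Multiset.mem_toFinset.mpr ha)

/-- nonzero elements are not infinitely divisible by `q` (`exists_div_pow_not_mem`), uniformly on a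
finite set -/
theorem exists_pow_lt (hq : q.Prime) (hA : A.LiesOverPrime q) (S : Finset Qb)
    (hS : ∀ y ∈ S, y ≠ 0) : ∃ K : ℕ, ∀ y ∈ S, A.valuation (q : Qb) ^ K < A.valuation y := by
  classical
  have hq0 : (q : Qb) ≠ 0 := by exact_mod_cast hq.ne_zero
  have hvq : A.valuation (q : Qb) < 1 := (A.mem_nonunits_iff).mp hA
  have hvq0 : A.valuation (q : Qb) ≠ 0 := (_root_.map_ne_zero _).2 hq0
  have hone : ∀ y : Qb, y ≠ 0 → ∃ k : ℕ, ∀ K, k ≤ K → A.valuation (q : Qb) ^ K < A.valuation y := by
    intro y hy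
    obtain ⟨k, hk⟩ := exists_div_pow_not_mem A q hq hA hy
    refine ⟨k, fun K hK => ?_⟩
    rw [← A.valuation_le_one_iff, not_le, map_div₀, map_pow,
      one_lt_div₀ (zero_lt_iff.mpr (pow_ne_zero _ hvq0))] at hk
    exact lt_of_le_of_lt (pow_le_pow_right_of_le_one' hvq.le hK) hk
  induction S using Finset.induction_on with
  | empty => exact ⟨0, fun y hy => absurd hy (Finset.notMem_empty y)⟩
  | insert a S _ ih =>
    obtain ⟨K₁, h₁⟩ := ih fun y hy => hS y (Finset.mem_insert_of_mem hy)
    obtain ⟨k, hk⟩ := hone a (hS a (Finset.mem_insert_self a S))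
    refine ⟨max K₁ k, fun y hy => ?_⟩
    rcases Finset.mem_insert.mp hy with rfl | hy
    · exact hk _ (le_max_right _ _)
    · exact lt_of_le_of_lt (pow_le_pow_right_of_le_one' hvq.le (le_max_left _ _)) (h₁ y hy)

end Fermat.Agent.S15.FL
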