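/-
S15 / block FL-1 (architect helper173).  Node FL-13a: `[K0(ϖ) : K0] ≤ e` by Krasner's lemma.
-/
import Fermat.Agent.S15.FL.Defs
import Fermat.Agent.S15.FL.Orbit
import Fermat.Agent.S15.FL.OrbPoly
import Fermat.Agent.S15.FL.Approx
import Fermat.Agent.S15.FL.Krasner

set_option autoImplicit false

namespace Fermat.Agent.S15.FL

open Fermat.Agent.Lib.InertiaField Polynomial

variable {A : ValuationSubring Qb} {q : ℕ}

/-- the degree of the lower order part -/
private theorem totRamLe_degree_lt (B : ℕ → Qb) (e : ℕ) :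
    (∑ j ∈ Finset.range e, C (B j) * X ^ j : Qb[X]).degree < e := by
  refine (degree_sum_le _ _).trans_lt ?_
  refine (Finset.sup_lt_iff (WithBot.bot_lt_coe e)).2 fun k hk => ?_
  exact (degree_C_mul_X_pow_le _ _).trans_lt (WithBot.coe_lt_coe.2 (Finset.mem_range.1 hk))

/-- `u = ∑_{j<e} B_j ϖ^j + q^M c'` (`exists_approx` for `c = u = ϖ^e / q`),
`h = X^e - C q * ∑ C (B_j) X^j ∈ K0[X]` monic of degree `e`, `h(ϖ) = q^(M+1) c'`; a root `ρ` of `h` with
`v(ϖ - ρ)^e ≤ v(q)^(M+1)` (`exists_root_close`); `K` from `exists_pow_lt` for the `ϖ - y`,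
`M = e K`: `v(ϖ - ρ) ≤ v(q)^K < v(ϖ - y)`; `krasner` gives `FixBy ρ ϖ`, so
`card (orb ϖ) ≤ card (orb ρ) ≤ e` (`ncard_orb_le_of_fixBy`, `ncard_orb_le_natDegree`). -/
theorem ncard_orb_prim_le (hq : q.Prime) (hA : A.LiesOverPrime q) {x ϖ u : Qb} {e : ℕ} (he : 0 < e)
    (hϖ : FixBy A x ϖ) (hu : IsUn A u) (hpow : ϖ ^ e = (q : Qb) * u)
    (hdiv : ∀ c, FixBy A x c → c ∈ A.nonunits → c / ϖ ∈ A) : (orb A ϖ).ncard ≤ e := by
  classical
  have hq0 : (q : Qb) ≠ 0 := Nat.cast_ne_zero.2 hq.ne_zero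
  have hufix : FixBy A x u := by
    have : u = ϖ ^ e / (q : Qb) := by rw [hpow]; field_simp
    rw [this]
    exact (hϖ.pow e).div (FixBy.natCast A x q)
  -- the separation constant
  obtain ⟨K, hK⟩ := exists_pow_lt hq hA
    (((orb_finite A ϖ).toFinset.erase ϖ).image fun y => ϖ - y) (by
      intro z hz
      obtain ⟨y, hy, rfl⟩ := Finset.mem_image.1 hz
      exact sub_ne_zero.2 (Finset.ne_of_mem_erase hy).symm)
  -- the approximation
  obtain ⟨B, c', hB, hc'A, -, hexp⟩ :=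
    exists_approx hq hA he hϖ hu hpow hdiv hufix (IsUn.mem A hu) (e * K)
  set h : Qb[X] := X ^ e - ∑ j ∈ Finset.range e, C ((q : Qb) * B j) * X ^ j with hh
  have hdeg := totRamLe_degree_lt (fun j => (q : Qb) * B j) e
  have hm : h.Monic := monic_X_pow_sub hdeg
  have hnd : h.natDegree = e := by
    refine natDegree_eq_of_degree_eq_some ?_
    rw [hh, degree_sub_eq_left_of_degree_lt (by rw [degree_X_pow]; exact hdeg), degree_X_pow]
  have hcoeff : ∀ i, h.coeff i ∈ K0 A := by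
    intro i
    rw [hh, coeff_sub, coeff_X_pow, finsetSum_coeff]
    refine sub_mem ?_ (sum_mem fun j _ => ?_)
    · split_ifs
      · exact one_mem _
      · exact zero_mem _
    · rw [coeff_C_mul_X_pow]
      split_ifs
      · exact mul_mem (natCast_mem _ _) (hB j).1
      · exact zero_mem _
  have heval : h.eval ϖ = (q : Qb) ^ (e * K + 1) * c' := by
    rw [hh]
    simp only [eval_sub, eval_pow, eval_X, eval_mul, eval_C, eval_finsetSum, mul_assoc]
    rw [← Finset.mul_sum, hpow, hexp]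
    ring
  obtain ⟨ρ, hρ0, hρ⟩ := exists_root_close (A := A) hm (by rw [hnd]; exact he) ϖ
  rw [hnd, heval] at hρ
  have hvq : A.valuation (q : Qb) ≤ 1 := (A.valuation_le_one_iff _).2 (natCast_mem _ _)
  have hvc : A.valuation c' ≤ 1 := (A.valuation_le_one_iff _).2 hc'A
  have hle : A.valuation (ϖ - ρ) ≤ A.valuation (q : Qb) ^ K := by
    have h1 : A.valuation (ϖ - ρ) ^ e ≤ (A.valuation (q : Qb) ^ K) ^ e := by
      refine hρ.trans ?_
      rw [map_mul, map_pow, ← pow_mul, mul_comm K e, pow_succ, mul_assoc]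
      exact mul_le_of_le_one_right' (mul_le_one' hvq hvc)
    exact (pow_le_pow_iff_left₀ zero_le zero_le he.ne').1 h1
  have hfix : FixBy A ρ ϖ := by
    refine krasner fun y hy hne => lt_of_le_of_lt hle (hK _ ?_)
    exact Finset.mem_image.2 ⟨y, Finset.mem_erase.2 ⟨hne, (orb_finite A ϖ).mem_toFinset.2 hy⟩, rfl⟩
  calc (orb A ϖ).ncard ≤ (orb A ρ).ncard := ncard_orb_le_of_fixBy hfix
    _ ≤ h.natDegree := ncard_orb_le_natDegree hm.ne_zero hcoeff hρ0
    _ = e := hnd

end Fermat.Agent.S15.FL
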