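/-
S15 / block FL-1 (architect helper173).  Node FL-13b: THEOREM TR (total ramification over the inertia
field), assembly.
-/
import Fermat.Agent.S15.FL.Defs
import Fermat.Agent.S15.FL.Orbit
import Fermat.Agent.S15.FL.UnifA
import Fermat.Agent.S15.FL.Prim
import Fermat.Agent.S15.FL.FixPrim
import Fermat.Agent.S15.FL.TotRamLe

set_option autoImplicit false

namespace Fermat.Agent.S15.FL

open Fermat.Agent.Lib.InertiaField Polynomial

variable {A : ValuationSubring Qb} {q : ℕ}

/-- THEOREM TR (total ramification over the inertia field).  `ϖ, e` from `exists_prim`;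
`card (orb ϖ) = e` (`le_ncard_orb`, `ncard_orb_prim_le`); `card (orb ϖ) = card (orb x)`
(`fixBy_prim` for `c = x`, `ncard_orb_le_of_fixBy` twice). -/
theorem exists_isUnif (hq : q.Prime) (hA : A.LiesOverPrime q) (x : Qb) :
    ∃ π, FixBy A x π ∧ FixBy A π x ∧ IsUnif A q π (orb A x).ncard := by
  obtain ⟨ϖ, u, e, he, hϖ, hu, hpow, hdiv⟩ := exists_prim hq hA x
  have hx : FixBy A ϖ x := fixBy_prim hq hA he hϖ hu hpow hdiv (FixBy.refl A x)
  have h1 : (orb A ϖ).ncard = e :=
    le_antisymm (ncard_orb_prim_le hq hA he hϖ hu hpow hdiv) (le_ncard_orb hq hA he hu hpow)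
  have h2 : (orb A ϖ).ncard = (orb A x).ncard :=
    le_antisymm (ncard_orb_le_of_fixBy hϖ) (ncard_orb_le_of_fixBy hx)
  refine ⟨ϖ, hϖ, hx, ?_⟩
  rw [← h2, h1]
  exact ⟨he, ⟨u, hu, hpow⟩, h1⟩

end Fermat.Agent.S15.FL
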