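/-
S15 / block FL-1 (architect helper173).  Node FL-15d: THEOREM F1, core form (assembly; helper99).
-/
import Fermat.Agent.S15.FL.Defs
import Fermat.Agent.S15.FL.Orbit
import Fermat.Agent.S15.FL.UnifA
import Fermat.Agent.S15.FL.Disc
import Fermat.Agent.S15.FL.TotRam
import Fermat.Agent.S15.FL.F1Gen
import Fermat.Agent.S15.FL.F1Card
import Fermat.Agent.S15.FL.F1Wild

set_option autoImplicit false

namespace Fermat.Agent.S15.FL

open Fermat.Agent.Lib.InertiaField Polynomial

variable {A : ValuationSubring Qb}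

/-- THEOREM F1, core form.  By contradiction `s0`; `x` (`exists_gen`), `card (orb x) = r`;
`π` (`exists_isUnif`), `s π = π ↔ s x = x ↔ c s = 0`; `disc`: `r = Q ∏_{y ≠ π} (π - y)`,
`r - 1` factors, each in `π² A` (`wild`); `π^r = r u`; so `1 ∈ π^(r-2) A`: contradiction for `r ≥ 3`. -/
theorem F1_core {r : ℕ} (hr : r.Prime) (h2 : r ≠ 2) (hA : A.LiesOverPrime r) (c : GQ → ZMod r)
    (hc : ∀ s ∈ Ine A, ∀ t ∈ Ine A, c (s * t) = c s + c t)
    (hF : S19.IsSI A (fun s => if c s = 0 then (r : Qb) else 0)) :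
    ∀ s ∈ Ine A, c s = 0 := by
  by_contra hcon
  push Not at hcon
  obtain ⟨s0, hs0, h0⟩ := hcon
  obtain ⟨x, hx⟩ := exists_gen hr c hc hF hs0 h0
  have hcard : (orb A x).ncard = r := ncard_orb_gen hr c hc hs0 h0 hx
  obtain ⟨π, hxπ, hπx, hπ⟩ := exists_isUnif hr hA x
  rw [hcard] at hπ
  have hst : ∀ s ∈ Ine A, s π = π ↔ c s = 0 := fun s hs =>
    ⟨fun h => (hx s hs).1 (hπx s hs h), fun h => hxπ s hs ((hx s hs).2 h)⟩
  have hc1 : c 1 = 0 := by
    have h := hc 1 (Ine A).one_mem 1 (Ine A).one_mem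
    rw [mul_one] at h
    exact left_eq_add.mp h
  obtain ⟨Q, hQ, hdisc⟩ := disc hr hA hπ hF
    (fun s hs h => if_neg fun h' => h ((hst s hs).2 h'))
    (fun s hs h => by
      show (if c s = 0 then (r : Qb) else 0) = if c 1 = 0 then (r : Qb) else 0
      rw [if_pos ((hst s hs).1 h), if_pos hc1])
  have hF1 : (if c 1 = 0 then (r : Qb) else 0) = (r : Qb) := if_pos hc1
  rw [hF1] at hdisc
  -- valuations
  obtain ⟨u, hu, hpow⟩ := hπ.exists_unit
  have hπ0 : π ≠ 0 := hπ.ne_zero hr
  have hv0 : 0 < A.valuation π := zero_lt_iff.2 ((_root_.map_ne_zero _).2 hπ0)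
  have hv1 : A.valuation π < 1 := A.mem_nonunits_iff.mp (hπ.mem_nonunits hA)
  have hvr : A.valuation (r : Qb) = A.valuation π ^ r := by
    rw [← map_pow, hpow, map_mul, show A.valuation u = 1 from hu, mul_one]
  have hfac : ∀ y ∈ (orb_finite A π).toFinset.erase π,
      A.valuation (π - y) ≤ A.valuation π ^ 2 := by
    intro y hy
    have hy' : y ∈ orb A π := (orb_finite A π).mem_toFinset.mp (Finset.mem_of_mem_erase hy)
    have h := (ValuationSubring.valuation_le_one_iff A _).2 (wild hr hA c hc hπ hst hy')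
    rw [map_div₀, map_pow] at h
    exact (div_le_one₀ (pow_pos hv0 2)).1 h
  have hcardF : ((orb_finite A π).toFinset.erase π).card = r - 1 := by
    rw [Finset.card_erase_of_mem ((orb_finite A π).mem_toFinset.mpr (mem_orb_self A π)),
      ← Set.ncard_eq_toFinset_card _ (orb_finite A π), hπ.card]
  have hprod : A.valuation (∏ y ∈ (orb_finite A π).toFinset.erase π, (π - y)) ≤
      (A.valuation π ^ 2) ^ (r - 1) := by
    rw [map_prod, ← hcardF]
    exact Finset.prod_le_pow_card _ _ _ hfac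
  have hle : A.valuation π ^ r ≤ A.valuation π ^ (2 * (r - 1)) := by
    rw [← hvr, hdisc, map_mul, pow_mul]
    calc A.valuation Q * A.valuation (∏ y ∈ (orb_finite A π).toFinset.erase π, (π - y))
        ≤ 1 * (A.valuation π ^ 2) ^ (r - 1) :=
          mul_le_mul' ((ValuationSubring.valuation_le_one_iff A _).2 hQ) hprod
      _ = (A.valuation π ^ 2) ^ (r - 1) := one_mul _
  have hr2 := hr.two_le
  have hlt : A.valuation π ^ (2 * (r - 1)) < A.valuation π ^ r :=
    pow_lt_pow_right_of_lt_one₀ hv0 hv1 (by omega)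
  exact absurd hle (not_le.2 hlt)

end Fermat.Agent.S15.FL
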