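/-
S15 / block FL-1 (architect helper173).  Node FL-16: THEOREM F1, deduced from its core form
`F1_core` by summing the functions `s ↦ s (ζ ^ (j m))`, `j < r`.
-/
import Fermat.Agent.S15.FL.Defs
import Fermat.Agent.S15.FL.F1Core

set_option autoImplicit false

namespace Fermat.Agent.S15.FL

open Fermat.Agent.Lib.InertiaField Polynomial

variable {A : ValuationSubring Qb}

/-- the geometric sum of the powers of `(s ζ) ^ m` -/
theorem F1.sum_eq {r : ℕ} (hr : r.Prime) (c : GQ → ZMod r)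
    (hc : ∀ s t, c (s * t) = c s + c t) (ζ : Qb) (hζ : IsPrimitiveRoot ζ r) (s : GQ) :
    (if c s = 0 then (r : Qb) else 0) = ∑ j ∈ Finset.range r, s (ζ ^ (j * (c s⁻¹).val)) := by
  have : Fact r.Prime := ⟨hr⟩
  have h1 : c 1 = 0 := by
    have := hc 1 1
    rw [mul_one] at this
    exact left_eq_add.1 this
  have hinv : c s + c s⁻¹ = 0 := by rw [← hc, mul_inv_cancel, h1]
  have hterm : ∀ j : ℕ, s (ζ ^ (j * (c s⁻¹).val)) = ((s ζ) ^ (c s⁻¹).val) ^ j := by
    intro j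
    rw [map_pow, ← pow_mul, mul_comm]
  simp only [hterm]
  have hsζ : IsPrimitiveRoot (s ζ) r := hζ.map_of_injective s.injective
  by_cases h0 : c s = 0
  · have h0' : c s⁻¹ = 0 := by rwa [h0, zero_add] at hinv
    rw [if_pos h0, h0']
    simp
  · have h0' : c s⁻¹ ≠ 0 := by
      intro h
      rw [h, add_zero] at hinv
      exact h0 hinv
    rw [if_neg h0]
    set η : Qb := (s ζ) ^ (c s⁻¹).val with hη
    have hη1 : η ≠ 1 := by
      intro h
      have hdvd : r ∣ (c s⁻¹).val := (hsζ.pow_eq_one_iff_dvd _).1 h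
      have hlt : (c s⁻¹).val < r := ZMod.val_lt _
      have hz : (c s⁻¹).val = 0 := Nat.eq_zero_of_dvd_of_lt hdvd hlt
      exact h0' ((ZMod.val_eq_zero _).1 hz)
    have hηr : η ^ r = 1 := by
      rw [hη, ← pow_mul, mul_comm, pow_mul, hsζ.pow_eq_one, one_pow]
    have hg := geom_sum_mul η r
    rw [hηr, sub_self] at hg
    exact ((mul_eq_zero.1 hg).resolve_right (sub_ne_zero.2 hη1)).symm

/-- THEOREM F1.  `∑_{j<r} s (ζ^(j m)) = ∑_j ((s ζ)^m)^j = r` if `r ∣ m`, `0` otherwise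
(`m = (c s⁻¹).val`, `s ζ` primitive); `IsSI.sum`, `IsSI.congr`. -/
theorem F1 {r : ℕ} (hr : r.Prime) (h2 : r ≠ 2) (hA : A.LiesOverPrime r) (c : GQ → ZMod r)
    (hc : ∀ s t, c (s * t) = c s + c t) (ζ : Qb) (hζ : IsPrimitiveRoot ζ r)
    (h : ∀ j : ℕ, S19.IsSI A (fun s => s (ζ ^ (j * (c s⁻¹).val)))) :
    ∀ s ∈ Ine A, c s = 0 := by
  refine F1_core hr h2 hA c (fun s _ t _ => hc s t) ?_
  exact (S19.IsSI.sum (Finset.range r) (fun j s => s (ζ ^ (j * (c s⁻¹).val)))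
    (fun j _ => h j)).congr (fun s _ => F1.sum_eq hr c hc ζ hζ s)

end Fermat.Agent.S15.FL
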