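/-
S15 / block FL-1 (architect helper173).  Node FL-14b: the Kummer case, the inertia orbit of `π` is the
set of all roots of `X ^ r - π ^ r`.
-/
import Fermat.Agent.S15.FL.Defs
import Fermat.Agent.S15.FL.Orbit
import Fermat.Agent.S15.FL.UnifA

set_option autoImplicit false

namespace Fermat.Agent.S15.FL

open Fermat.Agent.Lib.InertiaField Polynomial

variable {A : ValuationSubring Qb}

/-- if `π^r = r * unit` and every conjugate of `π` is `ξ π` with `ξ^r = 1`, then `π` is a uniformiser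
of degree `r` and `∏_{y ≠ π} (π - y) = r π^(r-1)`  (the orbit is `{ξ π : ξ^r = 1}` by
`le_ncard_orb`; `∏_ξ (X - ξ π) = X^r - π^r`, take the derivative at `π`; or
`∏_{ξ ≠ 1} (1 - ξ) = r`). -/
theorem isUnif_of_kummer {r : ℕ} (hr : r.Prime) (hA : A.LiesOverPrime r) {π u : Qb}
    (hu : IsUn A u) (hπ : π ^ r = (r : Qb) * u) (hconj : ∀ s ∈ Ine A, (s π) ^ r = π ^ r) :
    IsUnif A r π r ∧
      ∏ y ∈ (orb_finite A π).toFinset.erase π, (π - y) = (r : Qb) * π ^ (r - 1) := by
  have hmon : (X ^ r - C (π ^ r) : Qb[X]).Monic := monic_X_pow_sub_C _ hr.ne_zero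
  have hdeg : (X ^ r - C (π ^ r) : Qb[X]).natDegree = r := natDegree_X_pow_sub_C
  have hP0 : (X ^ r - C (π ^ r) : Qb[X]) ≠ 0 := hmon.ne_zero
  have hsub : (orb_finite A π).toFinset.val ≤ (X ^ r - C (π ^ r) : Qb[X]).roots := by
    rw [Multiset.le_iff_subset (orb_finite A π).toFinset.nodup]
    intro y hy
    obtain ⟨σ, hσ, rfl⟩ : y ∈ orb A π := (Set.Finite.mem_toFinset _).1 hy
    rw [mem_roots hP0, IsRoot.def, eval_sub, eval_pow, eval_X, eval_C, hconj σ hσ, sub_self]
  have hcard_s : Multiset.card (orb_finite A π).toFinset.val = (orb A π).ncard :=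
    (Set.ncard_eq_toFinset_card _ _).symm
  have hle : r ≤ (orb A π).ncard := le_ncard_orb hr hA hr.pos hu hπ
  have hroots_card : Multiset.card (X ^ r - C (π ^ r) : Qb[X]).roots ≤ r := by
    have := (X ^ r - C (π ^ r) : Qb[X]).card_roots'
    rwa [hdeg] at this
  have heq : (orb_finite A π).toFinset.val = (X ^ r - C (π ^ r) : Qb[X]).roots :=
    Multiset.eq_of_le_of_card_le hsub (by rw [hcard_s]; exact hroots_card.trans hle)
  have hcard : (orb A π).ncard = r := by
    refine le_antisymm ?_ hle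
    rw [← hcard_s, heq]
    exact hroots_card
  refine ⟨⟨hr.pos, ⟨u, hu, hπ⟩, hcard⟩, ?_⟩
  have hπmem : π ∈ (X ^ r - C (π ^ r) : Qb[X]).roots := by
    rw [← heq]
    exact (Set.Finite.mem_toFinset _).2 (mem_orb_self A π)
  have h1 := (IsAlgClosed.splits (X ^ r - C (π ^ r) : Qb[X])).eval_root_derivative hmon hπmem
  rw [← heq, ← Finset.erase_val] at h1
  have h2 : eval π (derivative (X ^ r - C (π ^ r) : Qb[X])) = (r : Qb) * π ^ (r - 1) := by
    rw [derivative_sub, derivative_X_pow, derivative_C, sub_zero, eval_mul, eval_C, eval_pow,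
      eval_X]
  rw [← h2, h1]
  rfl

end Fermat.Agent.S15.FL
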