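/-
S15 / block FL-1 (architect helper173), node FL-14a (helper198): a nonzero rational number is
`r ^ (v_r a)` times a unit of `A`.
-/
import Fermat.Agent.S15.FL.Defs
import Fermat.Agent.S15.FL.Orbit

set_option autoImplicit false

namespace Fermat.Agent.S15.FL

open Fermat.Agent.Lib.InertiaField Polynomial

variable {A : ValuationSubring Qb}

/-- a rational number of `r`-adic valuation `0` is a unit of `A` -/
theorem exists_unit_of_rat_aux {r : ℕ} (hr : r.Prime) (hA : A.LiesOverPrime r) {u : ℚ} (hu : u ≠ 0)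
    (hv : padicValRat r u = 0) : IsUn A (algebraMap ℚ Qb u) := by
  have : Fact r.Prime := ⟨hr⟩
  have hnum : u.num ≠ 0 := Rat.num_ne_zero.2 hu
  have hden : u.den ≠ 0 := u.den_nz
  have h1 : (padicValInt r u.num : ℤ) - padicValNat r u.den = 0 := hv
  have h2 : padicValInt r u.num = padicValNat r u.den := by omega
  have hiff : (r : ℤ) ∣ u.num ↔ r ∣ u.den := by
    have e1 : (r : ℤ) ∣ u.num ↔ 1 ≤ padicValInt r u.num := by
      have := padicValInt_dvd_iff (p := r) 1 u.num
      rw [pow_one] at this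
      rw [this]
      exact ⟨fun h => h.resolve_left hnum, Or.inr⟩
    have e2 : r ∣ u.den ↔ 1 ≤ padicValNat r u.den := by
      have := padicValNat_dvd_iff (p := r) 1 u.den
      rw [pow_one] at this
      rw [this]
      exact ⟨fun h => h.resolve_left hden, Or.inr⟩
    rw [e1, e2, h2]
  have hn : ¬ (r : ℤ) ∣ u.num := by
    intro hd
    exact Nat.not_coprime_of_dvd_of_dvd hr.one_lt (Int.natCast_dvd.1 hd) (hiff.1 hd) u.reduced
  have hd : ¬ (r : ℤ) ∣ (u.den : ℤ) := by
    intro hd
    exact hn (hiff.2 (Int.natCast_dvd_natCast.1 hd))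
  have v1 := Unram.valuation_intCast_eq_one hr hA hn
  have v2 := Unram.valuation_intCast_eq_one hr hA hd
  rw [Int.cast_natCast] at v2
  unfold IsUn
  rw [eq_ratCast, Rat.cast_def, map_div₀, v1, v2, div_one]

/-- `valuation_intCast_eq_one` of `Lib/InertiaField/Unram.lean` for numerator and denominator -/
theorem exists_unit_of_rat {r : ℕ} (hr : r.Prime) (hA : A.LiesOverPrime r) {a : ℚ} (ha : a ≠ 0) :
    ∃ u, IsUn A u ∧ (algebraMap ℚ Qb a) = (r : Qb) ^ (padicValRat r a) * u := by
  have : Fact r.Prime := ⟨hr⟩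
  have hr0 : (r : ℚ) ≠ 0 := Nat.cast_ne_zero.2 hr.ne_zero
  have hz : (r : ℚ) ^ (padicValRat r a) ≠ 0 := zpow_ne_zero _ hr0
  refine ⟨algebraMap ℚ Qb (a / (r : ℚ) ^ (padicValRat r a)),
    exists_unit_of_rat_aux hr hA (div_ne_zero ha hz) ?_, ?_⟩
  · rw [padicValRat.div ha hz, padicValRat.zpow, padicValRat.self hr.one_lt, mul_one, sub_self]
  · rw [← map_natCast (algebraMap ℚ Qb) r, ← map_zpow₀, ← map_mul, mul_div_cancel₀ _ hz]

end Fermat.Agent.S15.FL
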