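/-
S15 / block FL-1 (architect helper173).  Node FL-14c: THEOREM F2
(a Kummer class in `FL` at the residue characteristic `r` has `r ∣ v_r(a)`).
-/
import Fermat.Agent.S15.FL.Defs
import Fermat.Agent.S15.FL.Orbit
import Fermat.Agent.S15.FL.UnifA
import Fermat.Agent.S15.FL.Disc
import Fermat.Agent.S15.FL.RatUnit
import Fermat.Agent.S15.FL.F2Orb

set_option autoImplicit false

namespace Fermat.Agent.S15.FL

open Fermat.Agent.Lib.InertiaField Polynomial

variable {A : ValuationSubring Qb}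

/-- the geometric sum of an `r`-th root of unity `≠ 1` vanishes -/
theorem F2_geom_eq_zero {ξ : Qb} {r : ℕ} (h1 : ξ ^ r = 1) (h : ξ ≠ 1) :
    ∑ j ∈ Finset.range r, ξ ^ j = 0 := by
  have h2 := geom_sum_mul ξ r
  rw [h1, sub_self] at h2
  exact (mul_eq_zero.1 h2).resolve_right (sub_ne_zero.2 h)

/-- THEOREM F2.  Suppose `r ∤ k = v_r(a)`; `x r + y k = 1`, `π = r^x α^y` (zpow), `π^r = r * unit`
(`exists_unit_of_rat`); `(s π)^r = π^r` since `π^r ∈ ℚ`; `s π = π ↔ s α = α`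
(`s α / α` is an `r`-th root of unity and `(s α / α)^y = 1`, `gcd(y, r) = 1`);
`F = ∑_{j<r} ψ^j` is `IsSI` (`IsSI.sum`, `IsSI.pow`), `F s = r` if `s α = α`, `0` otherwise;
`disc` + `isUnif_of_kummer` give `r = Q r π^(r-1)`, so `π^(r-1)` is a unit: contradiction. -/
theorem F2 {r : ℕ} (hr : r.Prime) (hA : A.LiesOverPrime r) (a : ℚ) (ha : a ≠ 0) (α : Qb)
    (hα : α ^ r = algebraMap ℚ Qb a) (h : S19.IsSI A (fun s => α / s α)) :
    (r : ℤ) ∣ padicValRat r a := by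
  by_contra hdvd
  have hrQ : (r : Qb) ≠ 0 := Nat.cast_ne_zero.2 hr.ne_zero
  have haQ : algebraMap ℚ Qb a ≠ 0 := (_root_.map_ne_zero _).2 ha
  have hα0 : α ≠ 0 := by
    rintro rfl
    rw [zero_pow hr.ne_zero] at hα
    exact haQ hα.symm
  -- Bezout
  obtain ⟨x, y, hxy⟩ : IsCoprime (r : ℤ) (padicValRat r a) :=
    (Nat.prime_iff_prime_int.1 hr).coprime_iff_not_dvd.2 hdvd
  obtain ⟨u, hu, hau⟩ := exists_unit_of_rat hr hA ha
  have hsα : ∀ s : GQ, (s α) ^ r = algebraMap ℚ Qb a := fun s => by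
    rw [← map_pow, hα, s.commutes]
  have hsα0 : ∀ s : GQ, s α ≠ 0 := fun s => (_root_.map_ne_zero s).2 hα0
  have hpow : ∀ β : Qb, β ^ r = algebraMap ℚ Qb a →
      ((r : Qb) ^ x * β ^ y) ^ r = (r : Qb) * u ^ y := by
    intro β hβ
    have e1 : (β ^ y) ^ r = ((r : Qb) ^ (padicValRat r a)) ^ y * u ^ y := by
      rw [← zpow_natCast, ← zpow_mul, mul_comm, zpow_mul, zpow_natCast, hβ, hau, mul_zpow]
    have e2 : ((r : Qb) ^ x) ^ r * ((r : Qb) ^ (padicValRat r a)) ^ y = (r : Qb) := by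
      rw [← zpow_natCast, ← zpow_mul, ← zpow_mul, ← zpow_add₀ hrQ, mul_comm (padicValRat r a) y,
        hxy, zpow_one]
    rw [mul_pow, e1, ← mul_assoc, e2]
  set π : Qb := (r : Qb) ^ x * α ^ y with hπdef
  have hsπ : ∀ s : GQ, s π = (r : Qb) ^ x * (s α) ^ y := fun s => by
    rw [hπdef, map_mul, map_zpow₀, map_zpow₀, map_natCast]
  have hπr : π ^ r = (r : Qb) * u ^ y := hpow α hα
  obtain ⟨hunif, hprod⟩ := isUnif_of_kummer hr hA (hu.zpow A y) hπr
    (fun s _ => by rw [hsπ, hpow _ (hsα s), hπr])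
  -- the root of unity
  have hξr : ∀ s : GQ, (α / s α) ^ r = 1 := fun s => by
    rw [div_pow, hα, hsα, div_self haQ]
  have hiff : ∀ s : GQ, s π = π → s α = α := by
    intro s hs
    rw [hsπ, hπdef] at hs
    have h1 : (s α) ^ y = α ^ y := mul_left_cancel₀ (zpow_ne_zero x hrQ) hs
    have h2 : (α / s α) ^ y = 1 := by rw [div_zpow, h1, div_self (zpow_ne_zero y hα0)]
    have h3 : α / s α = 1 := by
      have h4 : (α / s α) ^ (x * (r : ℤ) + y * padicValRat r a) = 1 := by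
        rw [zpow_add₀ (div_ne_zero hα0 (hsα0 s)), mul_comm x, zpow_mul, zpow_mul, zpow_natCast,
          hξr, h2, one_zpow, one_zpow, one_mul]
      rwa [hxy, zpow_one] at h4
    exact ((div_eq_one_iff_eq (hsα0 s)).1 h3).symm
  -- the function `F`
  have hF : S19.IsSI A (fun s => ∑ j ∈ Finset.range r, (α / s α) ^ j) :=
    S19.IsSI.sum (Finset.range r) (fun j s => (α / s α) ^ j) (fun j _ => h.pow j)
  have hF1 : ∀ s : GQ, s α = α → ∑ j ∈ Finset.range r, (α / s α) ^ j = (r : Qb) := by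
    intro s hs
    rw [hs, div_self hα0]
    simp
  obtain ⟨Q, hQ, hQe⟩ := disc hr hA hunif hF
    (fun s _ hs => F2_geom_eq_zero (hξr s) (fun h1 => hs (by
      rw [hsπ, ← (div_eq_one_iff_eq (hsα0 s)).1 h1])))
    (fun s _ hs => by rw [hF1 s (hiff s hs), hF1 1 rfl])
  rw [hF1 1 rfl, hprod] at hQe
  have h1 : Q * π ^ (r - 1) = 1 := by
    have h2 : (r : Qb) * (Q * π ^ (r - 1)) = (r : Qb) * 1 := by
      rw [mul_one]
      conv_rhs => rw [hQe]
      ring
    exact mul_left_cancel₀ hrQ h2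
  have hπlt : A.valuation π < 1 := (A.mem_nonunits_iff).1 (hunif.mem_nonunits hA)
  have h3 : A.valuation (Q * π ^ (r - 1)) < 1 := by
    rw [map_mul, map_pow]
    have h4 : A.valuation π ^ (r - 1) < 1 :=
      pow_lt_one₀ zero_le hπlt (Nat.sub_ne_zero_of_lt hr.one_lt)
    exact lt_of_le_of_lt (mul_le_of_le_one_left' ((A.valuation_le_one_iff Q).2 hQ)) h4
  rw [h1, map_one] at h3
  exact lt_irrefl _ h3

end Fermat.Agent.S15.FL
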