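/-
S15 / block FL-1 (architect helper173): the local condition `FL` at the residue characteristic.
All nodes.  Exports:
* `disc`            (Disc.lean)   : the discriminant estimate for functions in `S_I`,
* `exists_isUnif`   (TotRam.lean) : total ramification of `K0(x)/K0`,
* `F1`, `F1_core`   (F1.lean, F1Core.lean) : an additive character in `FL` is unramified (`r` odd),
* `F2`              (F2.lean)     : a Kummer class in `FL` has valuation divisible by `r`.
-/
import Fermat.Agent.S15.FL.Disc
import Fermat.Agent.S15.FL.TotRam
import Fermat.Agent.S15.FL.F1
import Fermat.Agent.S15.FL.F2
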