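/-
S15 / block FL-1 (architect helper173): the two contracts `F1Statement`, `F2Statement` of
`S15/Abstract.lean`, literally.
-/
import Fermat.Agent.S15.Abstract
import Fermat.Agent.S15.FL.F1Core
import Fermat.Agent.S15.FL.F2

set_option autoImplicit false

namespace Fermat.Agent.S15.FL

open Fermat.Agent.Lib.InertiaField

/-- **F2**, the contract. -/
theorem f2Statement : Fermat.Agent.S15.F2Statement :=
  fun _ hr _ hA a ha α hα h => F2 hr hA a ha α hα h

/-- **F1**, multiplicative shape. -/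
theorem F1_mul {A : ValuationSubring Qb} {r : ℕ} (hr : r.Prime) (h2 : r ≠ 2)
    (hA : A.LiesOverPrime r) (h : GQ → Qb) (hmul : ∀ σ τ, h (σ * τ) = h σ * h τ)
    (hpow : ∀ σ, h σ ^ r = 1) (hSI : S19.IsSI A (fun s => s (h s⁻¹))) :
    ∀ τ ∈ Ine A, h τ = 1 := by
  classical
  have : NeZero r := ⟨hr.ne_zero⟩
  have : NeZero (r : Qb) := ⟨by exact_mod_cast hr.ne_zero⟩
  obtain ⟨ζ, hζ⟩ := HasEnoughRootsOfUnity.exists_primitiveRoot Qb r
  have hex : ∀ σ, ∃ i : ℕ, ζ ^ i = h σ := fun σ => by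
    obtain ⟨i, -, hi⟩ := hζ.eq_pow_of_pow_eq_one (hpow σ)
    exact ⟨i, hi⟩
  choose k hk using hex
  have hc0 : ∀ σ, ((k σ : ℕ) : ZMod r) = 0 ↔ h σ = 1 := fun σ => by
    rw [ZMod.natCast_eq_zero_iff, ← hk σ, hζ.pow_eq_one_iff_dvd]
  have hadd : ∀ σ τ, ((k (σ * τ) : ℕ) : ZMod r) = (k σ : ZMod r) + (k τ : ZMod r) := fun σ τ => by
    have hfin : IsOfFinOrder ζ := isOfFinOrder_iff_pow_eq_one.2 ⟨r, hr.pos, hζ.pow_eq_one⟩
    rw [← Nat.cast_add, ZMod.natCast_eq_natCast_iff, hζ.eq_orderOf, ← hfin.pow_eq_pow_iff_modEq,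
      pow_add, hk, hk, hk, hmul]
  have h1 : h 1 = 1 := by
    have h3 := hmul 1 1
    rw [mul_one] at h3
    have h0 : h 1 ≠ 0 := fun h0 => by
      have := hpow 1
      rw [h0, zero_pow hr.ne_zero] at this
      exact zero_ne_one this
    exact (mul_eq_left₀ h0).1 h3.symm
  have hinv : ∀ σ, h σ⁻¹ = 1 ↔ h σ = 1 := fun σ => by
    have h3 := hmul σ σ⁻¹
    rw [mul_inv_cancel, h1] at h3
    constructor
    · intro h4; rw [h4, mul_one] at h3; exact h3.symm
    · intro h4; rw [h4, one_mul] at h3; exact h3.symm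
  have hF : S19.IsSI A (fun s => if ((k s : ℕ) : ZMod r) = 0 then (r : Qb) else 0) := by
    refine (S19.IsSI.sum (Finset.range r) (fun j s => (s (h s⁻¹)) ^ j)
      (fun j _ => hSI.pow j)).congr ?_
    intro s _
    by_cases hs : h s = 1
    · rw [if_pos ((hc0 s).2 hs), (hinv s).2 hs]
      simp
    · rw [if_neg (fun h4 => hs ((hc0 s).1 h4))]
      have hne : s (h s⁻¹) ≠ 1 := fun h4 => by
        apply hs
        rw [← hinv]
        exact s.injective (by rw [h4, map_one])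
      have hgeom := mul_neg_geom_sum (s (h s⁻¹)) r
      rw [← map_pow, hpow, map_one, sub_self] at hgeom
      rcases mul_eq_zero.1 hgeom with h5 | h5
      · exact absurd (sub_eq_zero.1 h5).symm hne
      · exact h5.symm
  intro τ hτ
  exact (hc0 τ).1 (F1_core hr h2 hA (fun s => ((k s : ℕ) : ZMod r))
    (fun s _ t _ => hadd s t) hF τ hτ)

/-- **F1**, the contract. -/
theorem f1Statement : Fermat.Agent.S15.F1Statement :=
  fun _ hr h2 _ hA h hmul hpow hSI => F1_mul hr h2 hA h hmul hpow hSI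

end Fermat.Agent.S15.FL
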